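import Mathlib
import Fermat.Agent.DS.C.Defs
import Fermat.Agent.G.Desc.Main
import Fermat.Agent.G.Desc.Theta
import Fermat.Agent.S24.ADefs

/-!
# Program DS, package (C), row C6 (THETA): the `Γ₁(M)` instance of the descent package G/Desc

`K = Q̄`, `L = ℂ`, `F₀ = dscField M 1` (the function field of `X₁(M)` over `ℚ`).  This is the port
of `G/Desc/Inst.lean`; the abstract package (`gd_descent_map / _inj / _surj`, `gd_theta`,
`gd_theta_equivariant`) is IMPORTED, not copied.  The only level-specific input is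
`hsep : IsSepGen QBar (gdJ QBar (dscField M 1) (dscth_jq_mem M))` (`j` is a separating generator of
`F_Q̄(Γ₁(M))`: row C2), carried as an explicit hypothesis.

* `dscthFC M`   : the function field of `X₁(M)` over `ℂ`, inside `ℂ((q))`;
* `dscthIota M` : base change `dscFieldBar M 1 →+* dscthFC M` along `iotaBar`;
* `dscthd_descent_map / _inj / _surj`, `dscthd_theta`, `dscthd_theta_equivariant`.
-/

set_option autoImplicit false
set_option linter.style.haveILetI false
set_option linter.unusedSectionVars false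

noncomputable section

namespace Fermat.Agent.DS

open ModularCurve AlgebraicCurve HahnSeries Fermat.Agent.S24 Fermat.Agent.G

variable (M : ℕ) [NeZero M]

/-- the function field of `X₁(M)` over `ℂ`, inside `ℂ((q))`. -/
abbrev dscthFC : IntermediateField ℂ (LaurentSeries ℂ) :=
  laurentBaseChange ℂ (dscField M 1)

/-- base change `F_Q̄(Γ₁(M)) → F_ℂ(Γ₁(M))` along `iotaBar`. -/
def dscthIota : dscFieldBar M 1 →+* dscthFC M :=
  letI : Algebra QBar ℂ := iotaBar.toAlgebra
  gdIota QBar ℂ (dscField M 1)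

@[simp]
theorem coe_dscthIota (x : dscFieldBar M 1) :
    ((dscthIota M x : dscthFC M) : LaurentSeries ℂ) =
      coeffMap iotaBar (x : LaurentSeries QBar) := rfl

theorem dscth_jq_mem : jq ∈ dscField M 1 := by
  haveI : NeZero (M * 1) := ⟨by rw [mul_one]; exact NeZero.ne M⟩
  have h := jqd_mem_full (d := 1) (M * 1) (one_dvd _)
  rw [qExpand_one_apply] at h
  exact dsc_full_le ℚ M 1 h

/-- the function `j` on `X₁(M)` over `Q̄`. -/
abbrev dscthJBar : dscFieldBar M 1 := gdJ QBar (dscField M 1) (dscth_jq_mem M)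

/-- (T1) `ι` maps `W_n(F_Q̄)` into `W_n(F_ℂ)`. -/
theorem dscthd_descent_map (n : ℕ) (x : dscFieldBar M 1)
    (hx : GdDiv QBar (dscFieldBar M 1) n x) :
    GdDiv ℂ (dscthFC M) n (dscthIota M x) := by
  letI : Algebra QBar ℂ := iotaBar.toAlgebra
  exact gd_descent_map (dscField M 1) n x hx

/-- (T2) injectivity on classes modulo `n`-th powers. -/
theorem dscthd_descent_inj (n : ℕ) (hn : 0 < n) (x : dscFieldBar M 1) (hx : x ≠ 0)
    (g' : dscthFC M) (h : dscthIota M x = g' ^ n) :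
    ∃ g : dscFieldBar M 1, x = g ^ n := by
  letI : Algebra QBar ℂ := iotaBar.toAlgebra
  haveI : IsScalarTower ℚ QBar ℂ := IsScalarTower.of_algebraMap_eq fun r => by
    simp
  exact gd_descent_inj (dscField M 1) n hn x hx g' h

/-- (T3) surjectivity on classes, given the finiteness of `W_n(F_ℂ) / F_ℂ^{× n}`. -/
theorem dscthd_descent_surj (hsep : IsSepGen QBar (dscthJBar M)) (n : ℕ) (hn : 0 < n)
    (hfin : ∃ S : Finset (dscthFC M), ∀ x' : dscthFC M, x' ≠ 0 →
      GdDiv ℂ (dscthFC M) n x' → ∃ s ∈ S, GdRel n s x')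
    (x' : dscthFC M) (hx' : x' ≠ 0) (hdiv : GdDiv ℂ (dscthFC M) n x') :
    ∃ x : dscFieldBar M 1, x ≠ 0 ∧ GdDiv QBar (dscFieldBar M 1) n x ∧
      GdRel n (dscthIota M x) x' := by
  letI : Algebra QBar ℂ := iotaBar.toAlgebra
  haveI : IsScalarTower ℚ QBar ℂ := IsScalarTower.of_algebraMap_eq fun r => by
    simp
  exact gd_descent_surj (dscField M 1) (dscth_jq_mem M) hsep n hn hfin x' hx' hdiv

/-- (Θ) a family of Kummer generators over `ℂ`, additive and injective modulo `n`-th powers,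
descends to an injective homomorphism into `J₁(M)(Q̄)[n]`. -/
theorem dscthd_theta (hsep : IsSepGen QBar (dscthJBar M)) {A : Type*} [AddCommGroup A] (n : ℕ)
    (hn : 0 < n)
    (hfin : ∃ S : Finset (dscthFC M), ∀ x' : dscthFC M, x' ≠ 0 →
      GdDiv ℂ (dscthFC M) n x' → ∃ s ∈ S, GdRel n s x')
    (X : A → dscthFC M) (hX0 : ∀ a, X a ≠ 0) (hXdiv : ∀ a, GdDiv ℂ (dscthFC M) n (X a))
    (hXadd : ∀ a b, GdRel n (X a * X b) (X (a + b)))
    (hXinj : ∀ a, GdRel n 1 (X a) → a = 0) :
    ∃ Θ : A →+ DscJ M, Function.Injective Θ ∧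
      (∀ a, Θ a ∈ Pic0.torsion QBar (dscFieldBar M 1) n) ∧
      ∀ a, ∃ f : dscFieldBar M 1, f ≠ 0 ∧ GdRel n (dscthIota M f) (X a) ∧
        GdkRep (K := QBar) n f (Θ a) := by
  letI : Algebra QBar ℂ := iotaBar.toAlgebra
  haveI : IsScalarTower ℚ QBar ℂ := IsScalarTower.of_algebraMap_eq fun r => by
    simp
  exact gd_theta (dscField M 1) (dscth_jq_mem M) hsep n hn hfin X hX0 hXdiv hXadd hXinj

/-- (Θ-equivariance) transport of an operator `T` on `J₁(M)` induced by `H` on functions. -/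
theorem dscthd_theta_equivariant (hsep : IsSepGen QBar (dscthJBar M)) {A : Type*} (n : ℕ)
    (hn : 0 < n) (X : A → dscthFC M) (Θ : A → DscJ M)
    (hΘ : ∀ a, ∃ f : dscFieldBar M 1, f ≠ 0 ∧ GdRel n (dscthIota M f) (X a) ∧
      GdkRep (K := QBar) n f (Θ a))
    (T : DscJ M → DscJ M) (H : dscFieldBar M 1 → dscFieldBar M 1)
    (hTH : ∀ (f : dscFieldBar M 1) (x : DscJ M), f ≠ 0 →
      GdkRep (K := QBar) n f x → H f ≠ 0 ∧ GdkRep (K := QBar) n (H f) (T x))
    (a a' : A)
    (hH : ∀ f : dscFieldBar M 1, f ≠ 0 → GdRel n (dscthIota M f) (X a) →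
      GdRel n (dscthIota M (H f)) (X a')) :
    T (Θ a) = Θ a' := by
  letI : Algebra QBar ℂ := iotaBar.toAlgebra
  haveI : IsScalarTower ℚ QBar ℂ := IsScalarTower.of_algebraMap_eq fun r => by
    simp
  exact gd_theta_equivariant (dscField M 1) (dscth_jq_mem M) hsep n hn X Θ hΘ T H hTH a a' hH

end Fermat.Agent.DS
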