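/-
Program DS / package (C) / row C6 (THETA) : the DIAMOND LAW (helper8).

`L = dsctdL M = dscbrLevel ℂ id M` is the level datum of `X₁(M)` over `ℂ` (row C1c).  For
`γ ∈ Γ₀(M)` with lower right entry `≡ u` (mod `M`), Br-7 (`dscbr_toHol_diamond`) says
`γ • toHol x = toHol (⟨u⟩ x)` on the ring of the datum.  Consequences:

* `dsctd_mult_smul`    : (generic) `H` has multiplier `χ` ⟹ `g • H` has multiplier `δ ↦ χ (g⁻¹ δ g)`;
* `dsctd_conj_mem`     : `Γ₀(M)` normalises `L.Γ` (the stabiliser of the functions of the ring);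
* `dsctd_rel_diamond`  : `DsckmRel L n χ x ⟹ DsckmRel L n χ' (⟨u⟩_ℂ x)`, `χ' δ = χ (γ⁻¹ δ γ)`.

(The compatibility `ι (⟨u⟩_ℚ̄ f) = ⟨u⟩_ℂ (ι f)` is helper16's `Br/DiamondBC.lean`, the class-level
statement for `dscDiamondBar` is helper13's `Th/DiaClass.lean`.)
-/
import Mathlib
import Fermat.Agent.DS.C.Th.Kum.Alg
import Fermat.Agent.DS.C.Th.DescInst
import Fermat.Agent.DS.C.Br.Diamond

set_option autoImplicit false
set_option linter.unusedSectionVars false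
set_option linter.unusedVariables false

noncomputable section

namespace Fermat.Agent.DS

open UpperHalfPlane ModularCurve AlgebraicCurve CongruenceSubgroup Fermat.Agent.S24
  Fermat.Agent.G IntermediateField
open scoped MatrixGroups

local notation "Qb" => AlgebraicClosure ℚ

/-! ### generic : conjugating a multiplier -/

/-- if `H` has multiplier `χ`, then `g • H` has multiplier `δ ↦ χ (g⁻¹ δ g)`. -/
theorem dsctd_mult_smul {L : DscLevelC} {χ χ' : L.Γ →* ℂˣ} {H : HolRing} (g : SL(2, ℤ))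
    (hχ : ∀ δ : L.Γ, ∃ h : g⁻¹ * (δ : SL(2, ℤ)) * g ∈ L.Γ, χ' δ = χ ⟨_, h⟩)
    (hH : DsckmMult L χ H) : DsckmMult L χ' (g • H) := by
  intro δ
  obtain ⟨h, e⟩ := hχ δ
  have h1 := hH ⟨_, h⟩
  have e1 : ((δ : SL(2, ℤ))⁻¹ * g) = g * (g⁻¹ * (δ : SL(2, ℤ)) * g)⁻¹ := by group
  rw [← mul_smul, e1, mul_smul]
  have h2 : ((g⁻¹ * (δ : SL(2, ℤ)) * g)⁻¹ • H : HolRing) =
      HolRing.C ((χ ⟨_, h⟩ : ℂˣ) : ℂ) * H := h1
  rw [h2, smul_mul', dsckma_smul_C, e]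

/-! ### the level datum of `X₁(M)` over `ℂ` -/

section Level

variable (M : ℕ) [NeZero M]

/-- the level datum of `X₁(M)` over `ℂ`. -/
abbrev dsctdL : DscLevelC := dscbrLevel ℂ (RingHom.id ℂ) M

/-- the function field of the datum is helper13's `dscthFC M`. -/
theorem dsctdL_F : (dsctdL M).F = dscthFC M := rfl

/-- `γ ∈ Γ₀(M)` acts on the functions of the ring through the diamond automorphism. -/
theorem dsctd_smul_toHol (γ : SL(2, ℤ)) (hγ : γ ∈ Gamma0 M) (u : (ZMod M)ˣ)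
    (hu : (u : ZMod M) = ((γ 1 1 : ℤ) : ZMod M)) (x : (dsctdL M).R) :
    ∃ y : (dsctdL M).R,
      (y : (dsctdL M).F) = dscbrDiamond ℂ (RingHom.id ℂ) M u (x : (dsctdL M).F) ∧
        (dsctdL M).toHol y = γ • (dsctdL M).toHol x := by
  obtain ⟨hy, h⟩ := dscbr_toHol_diamond ℂ (RingHom.id ℂ) M γ hγ u hu x
  exact ⟨⟨_, hy⟩, rfl, h⟩

/-- the lower right entry of `γ ∈ Γ₀(M)` is a unit. -/
theorem dsctd_exists_unit (γ : SL(2, ℤ)) (hγ : γ ∈ Gamma0 M) :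
    ∃ u : (ZMod M)ˣ, (u : ZMod M) = ((γ 1 1 : ℤ) : ZMod M) :=
  ⟨dscbrdPi M ⟨γ, hγ⟩, dscbrd_pi_coe M ⟨γ, hγ⟩⟩

/-- `Γ₀(M)` normalises the group of the datum. -/
theorem dsctd_conj_mem (γ : SL(2, ℤ)) (hγ : γ ∈ Gamma0 M) {δ : SL(2, ℤ)}
    (hδ : δ ∈ (dsctdL M).Γ) : γ⁻¹ * δ * γ ∈ (dsctdL M).Γ := by
  obtain ⟨u, hu⟩ := dsctd_exists_unit M γ hγ
  refine (dsctdL M).sep _ fun x => ?_
  obtain ⟨y, -, hy⟩ := dsctd_smul_toHol M γ hγ u hu x
  rw [mul_smul, mul_smul, ← hy, (dsctdL M).inv δ hδ y, hy, inv_smul_smul]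

/-- **the diamond law** : if (the class of) `x` has an `n`-th root with multiplier `χ`, then (the
class of) `⟨u⟩ x` has an `n`-th root with multiplier `δ ↦ χ (γ⁻¹ δ γ)`, for `γ ∈ Γ₀(M)` with lower
right entry `u`. -/
theorem dsctd_rel_diamond {n : ℕ} (hn : 0 < n) (γ : SL(2, ℤ)) (hγ : γ ∈ Gamma0 M)
    (u : (ZMod M)ˣ) (hu : (u : ZMod M) = ((γ 1 1 : ℤ) : ZMod M))
    {χ χ' : (dsctdL M).Γ →* ℂˣ}
    (hχ : ∀ δ : (dsctdL M).Γ, ∃ h : γ⁻¹ * (δ : SL(2, ℤ)) * γ ∈ (dsctdL M).Γ, χ' δ = χ ⟨_, h⟩)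
    {x : (dsctdL M).F} (h : DsckmRel (dsctdL M) n χ x) :
    DsckmRel (dsctdL M) n χ' (dscbrDiamond ℂ (RingHom.id ℂ) M u x) := by
  obtain ⟨b, hb, H, hH, hm⟩ := h
  obtain ⟨a, s, hs, hys⟩ := dsckma_exists_frac (L := dsctdL M) (x * b ^ n)
  have hs' : (s : (dsctdL M).F) ≠ 0 := fun h0 => hs (Subtype.ext h0)
  obtain ⟨m, rfl⟩ : ∃ m, n = m + 1 := ⟨n - 1, by omega⟩
  -- `w = a s^m = x (b s)^(m+1)`
  set w : (dsctdL M).R := a * s ^ m with hw
  have hwx : ((w : (dsctdL M).R) : (dsctdL M).F) = x * (b * (s : (dsctdL M).F)) ^ (m + 1) := by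
    rw [hw]
    push_cast
    rw [← hys]
    ring
  -- `H₁ = H · toHol s` is an `n`-th root of `toHol w`, with multiplier `χ`
  have hH1 : (H * (dsctdL M).toHol s) ^ (m + 1) = (dsctdL M).toHol w := by
    apply Subtype.ext
    have e1 : HasCuspExp 1 (((H * (dsctdL M).toHol s) ^ (m + 1) : HolRing) : ℍ → ℂ)
        (((x * b ^ (m + 1) : (dsctdL M).F) : LaurentSeries ℂ) *
          (((s : (dsctdL M).F)) : LaurentSeries ℂ) ^ (m + 1)) := by
      rw [mul_pow, dsckma_hol_coe_mul]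
      exact hH.mul (dsckma_hasCuspExp_pow (dsckma_hasCuspExp_toHol s) (m + 1))
    have e2 : ((x * b ^ (m + 1) : (dsctdL M).F) : LaurentSeries ℂ) *
          (((s : (dsctdL M).F)) : LaurentSeries ℂ) ^ (m + 1) =
        (((w : (dsctdL M).R) : (dsctdL M).F) : LaurentSeries ℂ) := by
      rw [← dsckma_coe_pow, ← dsckma_coe_mul, hwx]
      congr 1
      ring
    rw [e2] at e1
    exact e1.eq_of_eq (dsckma_hasCuspExp_toHol w)
  have hm1 : DsckmMult (dsctdL M) χ (H * (dsctdL M).toHol s) := by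
    have e : χ * 1 = χ := mul_one χ
    have := dsckm_mult_mul hm (dsckma_toHol_invariant s)
    rwa [e] at this
  -- apply `γ`
  obtain ⟨w', hw', hw'hol⟩ := dsctd_smul_toHol M γ hγ u hu w
  refine ⟨dscbrDiamond ℂ (RingHom.id ℂ) M u (b * (s : (dsctdL M).F)), ?_,
    γ • (H * (dsctdL M).toHol s), ?_, dsctd_mult_smul γ hχ hm1⟩
  · exact (map_ne_zero _).mpr (mul_ne_zero hb hs')
  · rw [← smul_pow', hH1, ← hw'hol]
    have e3 : dscbrDiamond ℂ (RingHom.id ℂ) M u x *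
        dscbrDiamond ℂ (RingHom.id ℂ) M u (b * (s : (dsctdL M).F)) ^ (m + 1) =
          ((w' : (dsctdL M).R) : (dsctdL M).F) := by
      rw [hw', hwx]
      simp only [map_mul, map_pow]
    rw [e3]
    exact dsckma_hasCuspExp_toHol w'

end Level

end Fermat.Agent.DS
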