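import Mathlib
import Fermat.Agent.S24.HolRing

/-!
# Program DS, package (C), row C6 (THETA), file PM (helper8): the group `±Γ₁(M)`

`-1 ∉ Γ₁(M)` (for `M ≥ 3`) but `-1` acts trivially on `ℍ`, so the group of the covering
`ℍ → Y₁(M)` is `dscPM M = ±Γ₁(M) = {g | g ∈ Γ₁(M) ∨ -g ∈ Γ₁(M)}`.  Every COSET-SPACE statement of
the `Γ₀(N)` stack (`SL(2, ℤ) ⧸ Γ₀(N)`: degrees, orbit polynomials, places above a point) is ported
with `dscPM M`; invariance statements are stated for `g ∈ dscPM M` and follow from invariance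
under `Γ₁(M)` by `dsc_smul_eq_of_mem_PM`.

Mathlib + S24 `HolRing` only.  Namespace `Fermat.Agent.DS`.
-/

set_option autoImplicit false

noncomputable section

namespace Fermat.Agent.DS

open CongruenceSubgroup UpperHalfPlane Fermat.Agent.S24
open scoped MatrixGroups

/-- `±Γ₁(M)`. -/
def dscPM (M : ℕ) : Subgroup SL(2, ℤ) where
  carrier := {g | g ∈ Gamma1 M ∨ -g ∈ Gamma1 M}
  one_mem' := Or.inl (one_mem _)
  mul_mem' := by
    rintro a b (ha | ha) (hb | hb)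
    · exact Or.inl (mul_mem ha hb)
    · refine Or.inr ?_
      have : -(a * b) = a * -b := by rw [mul_neg]
      rw [this]; exact mul_mem ha hb
    · refine Or.inr ?_
      have : -(a * b) = -a * b := by rw [neg_mul]
      rw [this]; exact mul_mem ha hb
    · refine Or.inl ?_
      have : a * b = -a * -b := by rw [neg_mul_neg]
      rw [this]; exact mul_mem ha hb
  inv_mem' := by
    rintro a (ha | ha)
    · exact Or.inl (inv_mem ha)
    · refine Or.inr ?_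
      have h1 : -a⁻¹ = (-a)⁻¹ := by
        rw [eq_inv_iff_mul_eq_one, neg_mul_neg, inv_mul_cancel]
      rw [h1]; exact inv_mem ha

theorem mem_dscPM {M : ℕ} {g : SL(2, ℤ)} : g ∈ dscPM M ↔ g ∈ Gamma1 M ∨ -g ∈ Gamma1 M := Iff.rfl

theorem dsc_Gamma1_le_PM (M : ℕ) : Gamma1 M ≤ dscPM M := fun _ h => Or.inl h

theorem dsc_neg_one_mem_PM (M : ℕ) : (-1 : SL(2, ℤ)) ∈ dscPM M := by
  refine Or.inr ?_
  rw [neg_neg]; exact one_mem _

theorem dsc_neg_mem_PM {M : ℕ} {g : SL(2, ℤ)} (h : g ∈ dscPM M) : -g ∈ dscPM M := by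
  rcases h with h | h
  · exact Or.inr (by rwa [neg_neg])
  · exact Or.inl h

theorem dsc_Gamma1_le_Gamma0 (M : ℕ) : Gamma1 M ≤ Gamma0 M := by
  intro g hg
  rw [Gamma1_mem] at hg
  rw [Gamma0_mem]
  exact hg.2.2

theorem dsc_PM_le_Gamma0 (M : ℕ) : dscPM M ≤ Gamma0 M := by
  rintro g (h | h)
  · exact dsc_Gamma1_le_Gamma0 M h
  · have h1 := dsc_Gamma1_le_Gamma0 M h
    rw [Gamma0_mem] at h1 ⊢
    have h2 : ((-g : SL(2, ℤ)) 1 0 : ℤ) = -(g 1 0) := by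
      simp [Matrix.SpecialLinearGroup.coe_neg]
    rw [h2, Int.cast_neg, neg_eq_zero] at h1
    exact h1

/-- `Γ(M) ≤ ±Γ₁(M)`. -/
theorem dsc_Gamma_le_PM (M : ℕ) : Gamma M ≤ dscPM M := by
  intro g hg
  refine Or.inl ?_
  rw [Gamma_mem] at hg
  rw [Gamma1_mem]
  exact ⟨hg.1, hg.2.2.2, hg.2.2.1⟩

instance dsc_PM_finiteIndex (M : ℕ) [NeZero M] : (dscPM M).FiniteIndex :=
  Subgroup.finiteIndex_of_le (dsc_Gamma_le_PM M)

theorem dsc_finite_quotient_PM (M : ℕ) [NeZero M] : Finite (SL(2, ℤ) ⧸ dscPM M) :=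
  Subgroup.finite_quotient_of_finiteIndex

/-- `-1` acts trivially on `ℍ`. -/
theorem dsc_neg_smul (g : SL(2, ℤ)) (τ : ℍ) : (-g) • τ = g • τ :=
  ModularGroup.SL_neg_smul g τ

/-- `-1` acts trivially on holomorphic functions. -/
theorem dsc_neg_smul_hol (g : SL(2, ℤ)) (H : HolRing) : (-g) • H = g • H := by
  apply Subtype.ext
  funext τ
  rw [HolRing.smul_apply, HolRing.smul_apply]
  have h1 : (-g)⁻¹ = -g⁻¹ := by
    rw [inv_eq_iff_eq_inv, eq_inv_iff_mul_eq_one, neg_mul_neg, mul_inv_cancel]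
  rw [h1, dsc_neg_smul]

/-- a holomorphic function invariant under `Γ₁(M)` is invariant under `±Γ₁(M)`. -/
theorem dsc_smul_eq_of_mem_PM {M : ℕ} {H : HolRing}
    (hH : ∀ g : SL(2, ℤ), g ∈ Gamma1 M → g • H = H) {g : SL(2, ℤ)} (hg : g ∈ dscPM M) :
    g • H = H := by
  rcases hg with h | h
  · exact hH g h
  · have := hH (-g) h
    rwa [dsc_neg_smul_hol] at this

/-- `±Γ₁(M)` is normalised by `Γ₀(M)`. -/
theorem dsc_conj_mem_PM {M : ℕ} {g γ : SL(2, ℤ)} (hγ : γ ∈ Gamma0 M) (hg : g ∈ dscPM M) :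
    γ * g * γ⁻¹ ∈ dscPM M := by
  have key : ∀ g : SL(2, ℤ), g ∈ Gamma1 M → γ * g * γ⁻¹ ∈ Gamma1 M := by
    intro g hg
    -- `Γ₁(M)` is the kernel of `Γ₀(M) → (ℤ/M)ˣ`
    have h1 : (⟨g, dsc_Gamma1_le_Gamma0 M hg⟩ : Gamma0 M) ∈ Gamma1' M := by
      rw [Gamma1_to_Gamma0_mem]
      rw [Gamma1_mem] at hg
      exact hg
    have h2 : (⟨γ, hγ⟩ : Gamma0 M) * ⟨g, dsc_Gamma1_le_Gamma0 M hg⟩ * (⟨γ, hγ⟩ : Gamma0 M)⁻¹ ∈
        Gamma1' M := by
      unfold Gamma1' at h1 ⊢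
      exact (MonoidHom.normal_ker _).conj_mem _ h1 _
    rw [Gamma1_to_Gamma0_mem] at h2
    rw [Gamma1_mem]
    exact h2
  rcases hg with h | h
  · exact Or.inl (key g h)
  · refine Or.inr ?_
    have : -(γ * g * γ⁻¹) = γ * -g * γ⁻¹ := by rw [mul_neg, neg_mul]
    rw [this]
    exact key _ h

end Fermat.Agent.DS
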