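/-
Program DS (S48), package (C), row C6 (THETA), file Char (helper13): characters.

The `Γ₁(M)`-analogue of `G/Kum/Char.lean`: the bridge between additive `ℤ/n`-valued characters of
`Γ₁(M)^ab` (`dscAb M`, helper4's `Per/Defs.lean`) and multiplicative characters `Γ →* ℂˣ` of
exponent `n` of a group `Γ` between `Γ₁(M)` and `±Γ₁(M)` (in practice `Γ = L.Γ = ±Γ₁(M)`, the group
of the level datum of `X₁(M)`: the stabiliser of the functions contains `-1`, which is NOT in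
`Γ₁(M)` for `M ≥ 3`).

* `dscthProj hM Γ hΓ : Γ →* Gamma1 M`, `γ ↦ ±γ` (the sign making it an element of `Γ₁(M)`);
* `dscthChar1 n x : Gamma1 M →* ℂˣ`, `γ ↦ exp (2πi · x(cls γ) / n)`;
* `dscthChar hM Γ hΓ n x : Γ →* ℂˣ := dscthChar1 n x ∘ dscthProj`;
* `dscthChar_add/_zero/_pow/_norm/_eq_one_iff/_injective`, `dscthChar_PE_iff` (PE ↔ `x` kills
  `dscPE M`), `dscthChar1_prod_coc` (transfer law for any `S16lbHeckeData` on `Γ₁(M)`),
  `dscthChar_conj` (diamond law: `χ_x (σ γ σ⁻¹) = χ_{x ∘ ⟨d⟩} γ`, `σ ∈ Γ₀(M)`, `d = σ₁₁`);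
(The finiteness of the set of characters of exponent `n` of `L.Γ` is GENERIC: helper22's
`Th/Kum/FinChars.lean`, `dsckm_finite_chars`.)
-/
import Mathlib
import Fermat.Agent.DS.C.Th.PM
import Fermat.Agent.DS.C.Th.Kum.Defs
import Fermat.Agent.DS.C.Per.Main

set_option autoImplicit false

noncomputable section

namespace Fermat.Agent.DS

open Fermat.Agent.S16LB CongruenceSubgroup Fermat.Agent.S24
open scoped MatrixGroups BigOperators

/-! ### the projection `±Γ₁(M) → Γ₁(M)` -/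

theorem dscth_neg_one_not_mem {M : ℕ} (hM : 3 ≤ M) : (-1 : SL(2, ℤ)) ∉ Gamma1 M := by
  intro h
  rw [Gamma1_mem] at h
  have h1 : (((-1 : SL(2, ℤ)) 0 0 : ℤ) : ZMod M) = -1 := by
    simp [Matrix.SpecialLinearGroup.coe_neg]
  rw [h1] at h
  have h2 : ((2 : ℕ) : ZMod M) = 0 := by
    have : (1 : ZMod M) + 1 = 0 := by
      nth_rewrite 1 [← h.1]
      ring
    rw [← this]
    push_cast
    norm_num
  have h3 := (ZMod.natCast_eq_zero_iff 2 M).mp h2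
  have := Nat.le_of_dvd (by norm_num) h3
  omega

theorem dscth_not_both {M : ℕ} (hM : 3 ≤ M) {g : SL(2, ℤ)} (h1 : g ∈ Gamma1 M)
    (h2 : -g ∈ Gamma1 M) : False := by
  have e : (-1 : SL(2, ℤ)) = -g * g⁻¹ := by rw [neg_mul, mul_inv_cancel]
  exact dscth_neg_one_not_mem hM (e ▸ mul_mem h2 (inv_mem h1))

/-- the entry-wise description of `±Γ₁(M)` (the shape of `dscbrGamma M`, `Br/Defs.lean`). -/
theorem dscth_pm_of_entries {M : ℕ} {g : SL(2, ℤ)} (h10 : ((g 1 0 : ℤ) : ZMod M) = 0)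
    (h : (((g 1 1 : ℤ) : ZMod M) = 1 ∧ ((g 0 0 : ℤ) : ZMod M) = 1) ∨
      (((g 1 1 : ℤ) : ZMod M) = -1 ∧ ((g 0 0 : ℤ) : ZMod M) = -1)) :
    g ∈ Gamma1 M ∨ -g ∈ Gamma1 M := by
  rcases h with ⟨h11, h00⟩ | ⟨h11, h00⟩
  · left
    rw [Gamma1_mem]
    exact ⟨h00, h11, h10⟩
  · right
    rw [Gamma1_mem]
    have e00 : ((-g : SL(2, ℤ)) 0 0 : ℤ) = -(g 0 0) := by
      simp [Matrix.SpecialLinearGroup.coe_neg]
    have e11 : ((-g : SL(2, ℤ)) 1 1 : ℤ) = -(g 1 1) := by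
      simp [Matrix.SpecialLinearGroup.coe_neg]
    have e10 : ((-g : SL(2, ℤ)) 1 0 : ℤ) = -(g 1 0) := by
      simp [Matrix.SpecialLinearGroup.coe_neg]
    rw [e00, e11, e10]
    push_cast
    rw [h00, h11, h10]
    simp

/-- conversely. -/
theorem dscth_entries_of_pm {M : ℕ} {g : SL(2, ℤ)} (h : g ∈ Gamma1 M ∨ -g ∈ Gamma1 M) :
    ((g 1 0 : ℤ) : ZMod M) = 0 ∧
      ((((g 1 1 : ℤ) : ZMod M) = 1 ∧ ((g 0 0 : ℤ) : ZMod M) = 1) ∨
        (((g 1 1 : ℤ) : ZMod M) = -1 ∧ ((g 0 0 : ℤ) : ZMod M) = -1)) := by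
  rcases h with h | h
  · rw [Gamma1_mem] at h
    exact ⟨h.2.2, Or.inl ⟨h.2.1, h.1⟩⟩
  · rw [Gamma1_mem] at h
    have e00 : ((-g : SL(2, ℤ)) 0 0 : ℤ) = -(g 0 0) := by
      simp [Matrix.SpecialLinearGroup.coe_neg]
    have e11 : ((-g : SL(2, ℤ)) 1 1 : ℤ) = -(g 1 1) := by
      simp [Matrix.SpecialLinearGroup.coe_neg]
    have e10 : ((-g : SL(2, ℤ)) 1 0 : ℤ) = -(g 1 0) := by
      simp [Matrix.SpecialLinearGroup.coe_neg]
    rw [e00, e11, e10] at h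
    push_cast at h
    refine ⟨neg_eq_zero.mp h.2.2, Or.inr ⟨?_, ?_⟩⟩
    · rw [← h.2.1, neg_neg]
    · rw [← h.1, neg_neg]

section Proj

variable {M : ℕ} (hM : 3 ≤ M) (Γ : Subgroup SL(2, ℤ))
  (hΓ : ∀ g ∈ Γ, g ∈ Gamma1 M ∨ -g ∈ Gamma1 M)

open Classical in
/-- the underlying function of the projection. -/
def dscthProjFun (γ : Γ) : Gamma1 M :=
  if h : (γ : SL(2, ℤ)) ∈ Gamma1 M then ⟨γ, h⟩ else ⟨-γ, (hΓ γ γ.2).resolve_left h⟩

theorem dscthProjFun_of_mem (γ : Γ) (h : (γ : SL(2, ℤ)) ∈ Gamma1 M) :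
    dscthProjFun Γ hΓ γ = ⟨γ, h⟩ := by
  rw [dscthProjFun, dif_pos h]

include hM in
theorem dscthProjFun_of_neg_mem (γ : Γ) (h : -(γ : SL(2, ℤ)) ∈ Gamma1 M) :
    dscthProjFun Γ hΓ γ = ⟨-γ, h⟩ := by
  have h' : (γ : SL(2, ℤ)) ∉ Gamma1 M := fun h1 => dscth_not_both hM h1 h
  rw [dscthProjFun, dif_neg h']

/-- the projection `Γ → Γ₁(M)`, `γ ↦ ±γ`, for a group `Γ ≤ ±Γ₁(M)` (`M ≥ 3`). -/
def dscthProj : Γ →* Gamma1 M where
  toFun := dscthProjFun Γ hΓ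
  map_one' := by
    rw [dscthProjFun_of_mem Γ hΓ 1 (one_mem _)]
    rfl
  map_mul' a b := by
    apply Subtype.ext
    rcases hΓ a a.2 with ha | ha <;> rcases hΓ b b.2 with hb | hb
    · have hab : ((a * b : Γ) : SL(2, ℤ)) ∈ Gamma1 M := mul_mem ha hb
      rw [dscthProjFun_of_mem Γ hΓ _ hab, dscthProjFun_of_mem Γ hΓ _ ha,
        dscthProjFun_of_mem Γ hΓ _ hb]
      rfl
    · have hab : -((a * b : Γ) : SL(2, ℤ)) ∈ Gamma1 M := by
        have : -((a * b : Γ) : SL(2, ℤ)) = (a : SL(2, ℤ)) * -(b : SL(2, ℤ)) := by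
          rw [mul_neg]; rfl
        rw [this]; exact mul_mem ha hb
      rw [dscthProjFun_of_neg_mem hM Γ hΓ _ hab, dscthProjFun_of_mem Γ hΓ _ ha,
        dscthProjFun_of_neg_mem hM Γ hΓ _ hb]
      show -((a * b : Γ) : SL(2, ℤ)) = (a : SL(2, ℤ)) * -(b : SL(2, ℤ))
      rw [mul_neg]; rfl
    · have hab : -((a * b : Γ) : SL(2, ℤ)) ∈ Gamma1 M := by
        have : -((a * b : Γ) : SL(2, ℤ)) = -(a : SL(2, ℤ)) * (b : SL(2, ℤ)) := by
          rw [neg_mul]; rfl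
        rw [this]; exact mul_mem ha hb
      rw [dscthProjFun_of_neg_mem hM Γ hΓ _ hab, dscthProjFun_of_neg_mem hM Γ hΓ _ ha,
        dscthProjFun_of_mem Γ hΓ _ hb]
      show -((a * b : Γ) : SL(2, ℤ)) = -(a : SL(2, ℤ)) * (b : SL(2, ℤ))
      rw [neg_mul]; rfl
    · have hab : ((a * b : Γ) : SL(2, ℤ)) ∈ Gamma1 M := by
        have : ((a * b : Γ) : SL(2, ℤ)) = -(a : SL(2, ℤ)) * -(b : SL(2, ℤ)) := by
          rw [neg_mul_neg]; rfl
        rw [this]; exact mul_mem ha hb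
      rw [dscthProjFun_of_mem Γ hΓ _ hab, dscthProjFun_of_neg_mem hM Γ hΓ _ ha,
        dscthProjFun_of_neg_mem hM Γ hΓ _ hb]
      show ((a * b : Γ) : SL(2, ℤ)) = -(a : SL(2, ℤ)) * -(b : SL(2, ℤ))
      rw [neg_mul_neg]; rfl

theorem dscthProj_of_mem (γ : Γ) (h : (γ : SL(2, ℤ)) ∈ Gamma1 M) :
    dscthProj hM Γ hΓ γ = ⟨γ, h⟩ := dscthProjFun_of_mem Γ hΓ γ h

theorem dscthProj_of_neg_mem (γ : Γ) (h : -(γ : SL(2, ℤ)) ∈ Gamma1 M) :
    dscthProj hM Γ hΓ γ = ⟨-γ, h⟩ := dscthProjFun_of_neg_mem hM Γ hΓ γ h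

/-- `proj γ = ±γ`. -/
theorem dscthProj_coe (γ : Γ) :
    ((dscthProj hM Γ hΓ γ : Gamma1 M) : SL(2, ℤ)) = γ ∨
      ((dscthProj hM Γ hΓ γ : Gamma1 M) : SL(2, ℤ)) = -γ := by
  rcases hΓ γ γ.2 with h | h
  · left; rw [dscthProj_of_mem hM Γ hΓ γ h]
  · right; rw [dscthProj_of_neg_mem hM Γ hΓ γ h]

/-- `proj γ` and `γ` act in the same way on holomorphic functions. -/
theorem dscthProj_smul (γ : Γ) (H : HolRing) :
    ((dscthProj hM Γ hΓ γ : Gamma1 M) : SL(2, ℤ)) • H = (γ : SL(2, ℤ)) • H := by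
  rcases dscthProj_coe hM Γ hΓ γ with h | h
  · rw [h]
  · rw [h, dsc_neg_smul_hol]

theorem dscthProj_inv_smul (γ : Γ) (H : HolRing) :
    ((dscthProj hM Γ hΓ γ : Gamma1 M) : SL(2, ℤ))⁻¹ • H = (γ : SL(2, ℤ))⁻¹ • H := by
  have h := dscthProj_smul hM Γ hΓ γ⁻¹ H
  rw [map_inv] at h
  exact h

theorem dscthProj_trace_sq (γ : Γ) :
    ((((dscthProj hM Γ hΓ γ : Gamma1 M) : SL(2, ℤ)) : Matrix (Fin 2) (Fin 2) ℤ).trace) ^ 2 =
      (((γ : SL(2, ℤ)) : Matrix (Fin 2) (Fin 2) ℤ).trace) ^ 2 := by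
  rcases dscthProj_coe hM Γ hΓ γ with h | h
  · rw [h]
  · rw [h, Matrix.SpecialLinearGroup.coe_neg, Matrix.trace_neg, neg_sq]

/-- the projection restricted to `Γ₁(M)` is the identity. -/
theorem dscthProj_incl (hle : Gamma1 M ≤ Γ) (γ : Gamma1 M) :
    dscthProj hM Γ hΓ ⟨γ, hle γ.2⟩ = γ :=
  dscthProj_of_mem hM Γ hΓ ⟨γ, hle γ.2⟩ γ.2

theorem dscthProj_surjective (hle : Gamma1 M ≤ Γ) :
    Function.Surjective (dscthProj hM Γ hΓ) :=
  fun γ => ⟨⟨γ, hle γ.2⟩, dscthProj_incl hM Γ hΓ hle γ⟩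

/-- conjugation by `σ ∈ Γ₀(M)` commutes with the projection. -/
theorem dscthProj_conj [NeZero M] (σ : SL(2, ℤ)) (hσ : σ ∈ Gamma0 M) (γ : Γ)
    (hmem : σ * (γ : SL(2, ℤ)) * σ⁻¹ ∈ Γ) :
    dscthProj hM Γ hΓ ⟨σ * (γ : SL(2, ℤ)) * σ⁻¹, hmem⟩ =
      dscConj M σ hσ (dscthProj hM Γ hΓ γ) := by
  apply Subtype.ext
  rw [dscConj_coe]
  rcases hΓ γ γ.2 with h | h
  · have h' : σ * (γ : SL(2, ℤ)) * σ⁻¹ ∈ Gamma1 M := (dscConj M σ hσ ⟨γ, h⟩).2
    rw [dscthProj_of_mem hM Γ hΓ γ h, dscthProj_of_mem hM Γ hΓ ⟨_, hmem⟩ h']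
  · have h' : -(σ * (γ : SL(2, ℤ)) * σ⁻¹) ∈ Gamma1 M := by
      have e : -(σ * (γ : SL(2, ℤ)) * σ⁻¹) = σ * -(γ : SL(2, ℤ)) * σ⁻¹ := by
        rw [mul_neg, neg_mul]
      rw [e]
      exact (dscConj M σ hσ ⟨-γ, h⟩).2
    rw [dscthProj_of_neg_mem hM Γ hΓ γ h, dscthProj_of_neg_mem hM Γ hΓ ⟨_, hmem⟩ h']
    show -(σ * (γ : SL(2, ℤ)) * σ⁻¹) = σ * -(γ : SL(2, ℤ)) * σ⁻¹
    rw [mul_neg, neg_mul]

end Proj

/-! ### characters of `Γ₁(M)` -/

section Char1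

variable {M : ℕ} (n : ℕ) [NeZero n]

/-- The multiplicative character `γ ↦ exp (2πi · x(cls γ)/n)` of `Γ₁(M)` attached to an additive
character `x : Γ₁(M)^ab → ℤ/n`. -/
def dscthChar1 (x : dscAb M →+ ZMod n) : Gamma1 M →* ℂˣ :=
  ((ZMod.stdAddChar (N := n)).toMonoidHom.comp
    (AddMonoidHom.toMultiplicativeRight (x.comp (dscCls M)))).toHomUnits

@[simp] theorem dscthChar1_apply (x : dscAb M →+ ZMod n) (γ : Gamma1 M) :
    ((dscthChar1 n x γ : ℂˣ) : ℂ) = ZMod.stdAddChar (x (dscCls M (Additive.ofMul γ))) := rfl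

theorem dscthChar1_add (x y : dscAb M →+ ZMod n) :
    dscthChar1 n (x + y) = dscthChar1 n x * dscthChar1 n y := by
  refine MonoidHom.ext fun γ => Units.ext ?_
  rw [MonoidHom.mul_apply, Units.val_mul, dscthChar1_apply, dscthChar1_apply, dscthChar1_apply,
    AddMonoidHom.add_apply, AddChar.map_add_eq_mul]

theorem dscthChar1_zero : dscthChar1 n (0 : dscAb M →+ ZMod n) = 1 := by
  refine MonoidHom.ext fun γ => Units.ext ?_
  rw [dscthChar1_apply, AddMonoidHom.zero_apply, AddChar.map_zero_eq_one]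
  rfl

theorem dscthChar1_pow (x : dscAb M →+ ZMod n) (γ : Gamma1 M) : dscthChar1 n x γ ^ n = 1 := by
  refine Units.ext ?_
  rw [Units.val_pow_eq_pow_val, dscthChar1_apply, ← AddChar.map_nsmul_eq_pow, nsmul_eq_mul,
    ZMod.natCast_self, zero_mul, AddChar.map_zero_eq_one]
  rfl

theorem dscthChar1_norm (x : dscAb M →+ ZMod n) (γ : Gamma1 M) :
    ‖((dscthChar1 n x γ : ℂˣ) : ℂ)‖ = 1 := by
  rw [dscthChar1_apply, ZMod.stdAddChar_apply]
  exact Circle.norm_coe _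

theorem dscthChar1_eq_one_iff (x : dscAb M →+ ZMod n) : dscthChar1 n x = 1 ↔ x = 0 := by
  constructor
  · intro h
    refine dscAb_ext fun γ => ?_
    have h1 := congrArg (fun u : ℂˣ => (u : ℂ)) (DFunLike.congr_fun h (Additive.toMul γ))
    simp only [dscthChar1_apply, MonoidHom.one_apply, Units.val_one] at h1
    rw [← AddChar.map_zero_eq_one (ZMod.stdAddChar (N := n))] at h1
    exact ZMod.injective_stdAddChar h1
  · rintro rfl
    exact dscthChar1_zero n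

theorem dscthChar1_eq_one_at_iff (x : dscAb M →+ ZMod n) (γ : Gamma1 M) :
    dscthChar1 n x γ = 1 ↔ x (dscCls M (Additive.ofMul γ)) = 0 := by
  constructor
  · intro h
    have h1 := congrArg (fun u : ℂˣ => (u : ℂ)) h
    simp only [dscthChar1_apply, Units.val_one] at h1
    rw [← AddChar.map_zero_eq_one (ZMod.stdAddChar (N := n))] at h1
    exact ZMod.injective_stdAddChar h1
  · intro h
    refine Units.ext ?_
    rw [dscthChar1_apply, h, AddChar.map_zero_eq_one]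
    rfl

theorem dscth_addChar_sum {A B ι : Type*} [AddCommMonoid A] [CommMonoid B] (ψ : AddChar A B)
    (s : Finset ι) (f : ι → A) : ψ (∑ i ∈ s, f i) = ∏ i ∈ s, ψ (f i) := by
  classical
  induction s using Finset.induction_on with
  | empty => simp
  | insert a s ha ih => rw [Finset.sum_insert ha, Finset.prod_insert ha, AddChar.map_add_eq_mul, ih]

/-- **transfer law**: for `χ = dscthChar1 n x` the multiplier of the transfer is
`dscthChar1 n (x ∘ trEnd)`. -/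
theorem dscthChar1_prod_coc {𝔾 I : Type*} [Group 𝔾] [Fintype I]
    (H : S16lbHeckeData 𝔾 (Gamma1 M) I) (x : dscAb M →+ ZMod n) (γ : Gamma1 M) :
    ∏ i, dscthChar1 n x (H.coc γ i) = dscthChar1 n (x.comp H.trEnd) γ := by
  refine Units.ext ?_
  rw [Units.coe_prod, dscthChar1_apply, AddMonoidHom.comp_apply]
  have hcls : dscCls M (Additive.ofMul γ) = Additive.ofMul (Abelianization.of γ) := rfl
  rw [hcls, S16lbHeckeData.trEnd_of, map_sum, dscth_addChar_sum]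
  rfl

/-- **diamond law** on `Γ₁(M)`: `χ_x (σ γ σ⁻¹) = χ_{x ∘ ⟨d⟩} γ` for `σ ∈ Γ₀(M)` with `σ₁₁ ≡ d`. -/
theorem dscthChar1_conj [NeZero M] (x : dscAb M →+ ZMod n) (d : (ZMod M)ˣ) (σ : SL(2, ℤ))
    (hσ : σ ∈ Gamma0 M) (hd : ((σ 1 1 : ℤ) : ZMod M) = d) (γ : Gamma1 M) :
    dscthChar1 n x (dscConj M σ hσ γ) = dscthChar1 n (x.comp (dscDia M d)) γ := by
  refine Units.ext ?_
  rw [dscthChar1_apply, dscthChar1_apply, AddMonoidHom.comp_apply, dscDia_cls M d σ hσ hd γ]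

end Char1

/-! ### characters of a group between `Γ₁(M)` and `±Γ₁(M)` -/

section Char

variable {M : ℕ} (hM : 3 ≤ M) (Γ : Subgroup SL(2, ℤ))
  (hΓ : ∀ g ∈ Γ, g ∈ Gamma1 M ∨ -g ∈ Gamma1 M) (n : ℕ) [NeZero n]

/-- the character of `Γ` attached to an additive character of `Γ₁(M)^ab` (trivial on `-1`). -/
def dscthChar (x : dscAb M →+ ZMod n) : Γ →* ℂˣ :=
  (dscthChar1 n x).comp (dscthProj hM Γ hΓ)

theorem dscthChar_apply (x : dscAb M →+ ZMod n) (γ : Γ) :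
    dscthChar hM Γ hΓ n x γ = dscthChar1 n x (dscthProj hM Γ hΓ γ) := rfl

theorem dscthChar_add (x y : dscAb M →+ ZMod n) :
    dscthChar hM Γ hΓ n (x + y) = dscthChar hM Γ hΓ n x * dscthChar hM Γ hΓ n y := by
  refine MonoidHom.ext fun γ => ?_
  rw [MonoidHom.mul_apply, dscthChar_apply, dscthChar_apply, dscthChar_apply, dscthChar1_add,
    MonoidHom.mul_apply]

theorem dscthChar_zero : dscthChar hM Γ hΓ n (0 : dscAb M →+ ZMod n) = 1 := by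
  refine MonoidHom.ext fun γ => ?_
  rw [dscthChar_apply, dscthChar1_zero]
  rfl

theorem dscthChar_pow (x : dscAb M →+ ZMod n) (γ : Γ) : dscthChar hM Γ hΓ n x γ ^ n = 1 :=
  dscthChar1_pow n x _

theorem dscthChar_norm (x : dscAb M →+ ZMod n) (γ : Γ) :
    ‖((dscthChar hM Γ hΓ n x γ : ℂˣ) : ℂ)‖ = 1 :=
  dscthChar1_norm n x _

theorem dscthChar_eq_one_iff (hle : Gamma1 M ≤ Γ) (x : dscAb M →+ ZMod n) :
    dscthChar hM Γ hΓ n x = 1 ↔ x = 0 := by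
  constructor
  · intro h
    rw [← dscthChar1_eq_one_iff n]
    refine MonoidHom.ext fun γ => ?_
    have h1 := DFunLike.congr_fun h ⟨γ, hle γ.2⟩
    rw [dscthChar_apply, dscthProj_incl hM Γ hΓ hle γ] at h1
    exact h1
  · rintro rfl
    exact dscthChar_zero hM Γ hΓ n

theorem dscthChar_injective (hle : Gamma1 M ≤ Γ) :
    Function.Injective (dscthChar (M := M) hM Γ hΓ n) := by
  intro x y h
  have h1 : dscthChar hM Γ hΓ n (x - y) = 1 := by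
    have h2 := dscthChar_add hM Γ hΓ n (x - y) y
    rw [sub_add_cancel, h] at h2
    refine MonoidHom.ext fun γ => ?_
    have h3 := DFunLike.congr_fun h2 γ
    rw [MonoidHom.mul_apply] at h3
    rw [MonoidHom.one_apply]
    exact mul_eq_right.mp h3.symm
  have := (dscthChar_eq_one_iff hM Γ hΓ n hle (x - y)).mp h1
  exact sub_eq_zero.mp this

/-- `dscthChar n x` is trivial on the elements with `trace² ≤ 4` iff `x` kills `dscPE M`. -/
theorem dscthChar_PE_iff (hle : Gamma1 M ≤ Γ) (x : dscAb M →+ ZMod n) :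
    (∀ γ : Γ, (((γ : SL(2, ℤ)) : Matrix (Fin 2) (Fin 2) ℤ).trace) ^ 2 ≤ 4 →
      dscthChar hM Γ hΓ n x γ = 1) ↔ ∀ s ∈ dscPE M, x s = 0 := by
  constructor
  · rintro h s ⟨γ, hγ, rfl⟩
    have h1 := h ⟨γ, hle γ.2⟩ hγ
    rw [dscthChar_apply, dscthProj_incl hM Γ hΓ hle γ] at h1
    exact (dscthChar1_eq_one_at_iff n x γ).mp h1
  · intro h γ hγ
    rw [dscthChar_apply, dscthChar1_eq_one_at_iff]
    refine h _ ⟨dscthProj hM Γ hΓ γ, ?_, rfl⟩
    rw [dscthProj_trace_sq]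
    exact hγ

/-- **diamond law** on `Γ`. -/
theorem dscthChar_conj [NeZero M] (x : dscAb M →+ ZMod n) (d : (ZMod M)ˣ) (σ : SL(2, ℤ))
    (hσ : σ ∈ Gamma0 M) (hd : ((σ 1 1 : ℤ) : ZMod M) = d) (γ : Γ)
    (hmem : σ * (γ : SL(2, ℤ)) * σ⁻¹ ∈ Γ) :
    dscthChar hM Γ hΓ n x ⟨σ * (γ : SL(2, ℤ)) * σ⁻¹, hmem⟩ =
      dscthChar hM Γ hΓ n (x.comp (dscDia M d)) γ := by
  rw [dscthChar_apply, dscthChar_apply, dscthProj_conj hM Γ hΓ σ hσ γ hmem,
    dscthChar1_conj n x d σ hσ hd]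

end Char

end Fermat.Agent.DS
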