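/-
Program DS (S48), package (C), row C6 (THETA), file DiaClass (helper13): the diamond operators on
classes.

The automorphism analogue of helper28's `dscff_hecke_class`: if `n D = div f` then
`⟨e⟩ [D] = [E]` with `n E = div (⟨e⟩ f)`, i.e. in the vocabulary of `G/Desc/Kummer.lean`

  `GdkRep n f x → GdkRep n (dscDiamondAut Qb M 1 e f) (dscDiamondBar M e x)`.

This is EXACTLY the hypothesis `hTH` of `dscthd_theta_equivariant` (`Th/DescInst.lean`) for
`T := dscDiamondBar M e`, `H := dscDiamondAut Qb M 1 e`, so the diamond half (TH-D) of the Θ-join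
reduces to the function-level diamond law over `ℂ`.

* `dscth_gdkRep_smul` : GENERIC, for any semilinear automorphism `g` of a function field:
  `GdkRep n f x → GdkRep n (g • f) (g • x)`;
* `dscth_diamond_class` : the statement above.
-/
import Mathlib
import Fermat.Agent.DS.C.Diamond
import Fermat.Agent.G.Desc.Kummer

set_option autoImplicit false

noncomputable section

namespace Fermat.Agent.DS

open ModularCurve AlgebraicCurve Fermat.Agent.G

/-- a semilinear automorphism maps the Kummer representation of `f` to the one of `g • f`. -/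
theorem dscth_gdkRep_smul {K F : Type*} [Field K] [Field F] [Algebra K F]
    (g : SemilinearAut K F) {n : ℕ} {f : F} {x : Pic0 K F} (h : GdkRep (K := K) n f x) :
    GdkRep (K := K) n (g • f) (g • x) := by
  obtain ⟨D, rfl, hD⟩ := h
  refine ⟨SemilinearAut.degZeroSMulHom g D, SemilinearAut.pic0_smul_mk g D, fun P => ?_⟩
  rw [SemilinearAut.coe_degZeroSMulHom, SemilinearAut.divisor_smul_apply, hD (g⁻¹ • P)]
  have h1 := SemilinearAut.ord_smul g (g⁻¹ • P) f
  rw [smul_inv_smul] at h1
  exact h1.symm

/-- **the diamond operators on classes.** -/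
theorem dscth_diamond_class (M : ℕ) (e : (ZMod M)ˣ) (n : ℕ) (f : dscFieldBar M 1) (x : DscJ M)
    (hf : f ≠ 0) (h : GdkRep (K := AlgebraicClosure ℚ) n f x) :
    dscDiamondAut (AlgebraicClosure ℚ) M 1 e f ≠ 0 ∧
      GdkRep (K := AlgebraicClosure ℚ) n (dscDiamondAut (AlgebraicClosure ℚ) M 1 e f)
        (dscDiamondBar M e x) := by
  refine ⟨(map_ne_zero_iff _ (dscDiamondAut (AlgebraicClosure ℚ) M 1 e).injective).mpr hf, ?_⟩
  rw [dscDiamondBar_apply]
  exact dscth_gdkRep_smul (SemilinearAut.ofAlgAut (dscDiamondAut (AlgebraicClosure ℚ) M 1 e)) h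

end Fermat.Agent.DS
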