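/-
Program DS / package (C), row C6 (THETA), leaf HECKE for `Γ₁(M)` (helper22).

The generic analytic Hecke operator of `Th/Kum/Hecke.lean`, instantiated at helper4's Hecke datum
`dscDataT M p hpM` on `Γ₁(M)` (`Per/Defs.lean`: representatives `dscRep M p hpM x = c_x · α_x`,
`c_∞ = σ_p = dscSigma M (dscUnit M p hpM)`, `c_j = 1`), over ANY level datum `L : DscLevelC` with
`Γ₁(M) ≤ L.Γ ≤ ± Γ₁(M)`.

* `dsckmHeckeHol1 M p hpM G (τ) = ∏ x, G (dscRep M p hpM x • τ) = (σ_p⁻¹ • G)(p τ) ∏_j G((τ + j)/p)`;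
* `dsckm_heckeHol1_smul` : multiplier `∏ i, χ (coc γ i)` on `Γ₁(M)`;
* `dsckm_rel_hecke` : if `δ : L.F →+* L.F` is the diamond twist (`toHol (δ r) = σ_p⁻¹ • toHol r` on `L.R`),
  `DsckmRel L n χ x` and `y(Q^p) = (δ x)(Q^(p²)) ∏_{i<p} x(ζ^i Q)`, then `DsckmRel L n χ' y` with
  `χ' (± γ) = ∏ i, χ (coc γ i)` for `γ ∈ Γ₁(M)`, i.e. `χ'` is the transfer `χ ∘ dscTr M p hpM` on classes.
-/
import Fermat.Agent.DS.C.Th.Kum.Hecke
import Fermat.Agent.DS.C.Per.Defs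

set_option autoImplicit false
set_option linter.unusedSectionVars false
set_option linter.unusedVariables false

noncomputable section

namespace Fermat.Agent.DS

open UpperHalfPlane ModularCurve AlgebraicCurve CongruenceSubgroup Fermat.Agent.S24
  Fermat.Agent.S16LB Fermat.Agent.G IntermediateField
open P2MW.S_ModularForm_heckeT_slash_eq_self_of_mem_Gamma0.ModularForm.HeckeSlashInvariance
open scoped MatrixGroups Manifold ModularForm Real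

variable {L : DscLevelC} {n : ℕ} (M p : ℕ) [NeZero M] [Fact p.Prime] (hpM : ¬ p ∣ M)

/-- helper4's correctors are `dsckmhCorr p σ_p 1`. -/
theorem dscCorr_eq_dsckmhCorr :
    dscCorr M p hpM = dsckmhCorr p (dscSigma M (dscUnit M p hpM)) 1 := rfl

/-- the analytic Hecke operator of `Γ₁(M)`: `τ ↦ ∏ x, G (dscRep M p hpM x • τ)`. -/
def dsckmHeckeHol1 (G : HolRing) : HolRing := dsckmHeckeHol (dscCorr M p hpM) G

theorem dsckmHeckeHol1_apply (G : HolRing) (τ : ℍ) :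
    ((dsckmHeckeHol1 M p hpM G : HolRing) : ℍ → ℂ) τ =
      ∏ x : OnePoint (ZMod p), (G : ℍ → ℂ) ((dscRep M p hpM x : GL (Fin 2) ℝ) • τ) :=
  dsckmHeckeHol_apply _ G τ

theorem dsckmHeckeHol1_pow (G : HolRing) (m : ℕ) :
    dsckmHeckeHol1 M p hpM (G ^ m) = (dsckmHeckeHol1 M p hpM G) ^ m :=
  dsckmHeckeHol_pow _ G m

theorem dsckmHeckeHol1_mul (G G' : HolRing) :
    dsckmHeckeHol1 M p hpM (G * G') = dsckmHeckeHol1 M p hpM G * dsckmHeckeHol1 M p hpM G' :=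
  dsckmHeckeHol_mul _ G G'

/-- (HCUSP) -/
theorem dsckm_heckeHol1_cusp {G : HolRing} (hc : DsckmCusp G) :
    DsckmCusp (dsckmHeckeHol1 M p hpM G) :=
  dsckm_heckeHol_cusp _ hc

/-- (HMULT) on `Γ₁(M)`. -/
theorem dsckm_heckeHol1_smul (hΓ : Gamma1 M ≤ L.Γ) {χ : L.Γ →* ℂˣ} {H : HolRing}
    (h : DsckmMult L χ H) (γ : Gamma1 M) (τ : ℍ) :
    ((dsckmHeckeHol1 M p hpM H : HolRing) : ℍ → ℂ)
        ((Matrix.SpecialLinearGroup.mapGL ℝ (γ : SL(2, ℤ)) : GL (Fin 2) ℝ) • τ) =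
      ((∏ i, χ (Subgroup.inclusion hΓ ((dscDataT M p hpM).coc γ i)) : ℂˣ) : ℂ) *
        ((dsckmHeckeHol1 M p hpM H : HolRing) : ℍ → ℂ) τ :=
  dsckm_heckeHol_smul (dscDataT M p hpM) (dscCorr M p hpM) (fun _ => rfl)
    (Subgroup.inclusion hΓ) (fun _ => rfl) h γ τ

/-- (HEXP) -/
theorem dsckm_heckeHol1_cuspExp {G : HolRing} {A B S' : LaurentSeries ℂ}
    (hA : HasCuspExp 1 (((dscSigma M (dscUnit M p hpM))⁻¹ • G : HolRing) : ℍ → ℂ) A)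
    (hB : HasCuspExp 1 (G : ℍ → ℂ) B)
    (ζ : ℂˣ) (hζ : IsPrimitiveRoot ζ p) (hS : DsckmIsHeckeNorm p ζ A B S') :
    HasCuspExp 1 ((dsckmHeckeHol1 M p hpM G : HolRing) : ℍ → ℂ) S' := by
  refine dsckm_heckeHol_cuspExp (dscCorr M p hpM) hA (fun j => ?_) ζ hζ hS
  show HasCuspExp 1 ((((1 : SL(2, ℤ))⁻¹ • G : HolRing)) : ℍ → ℂ) B
  rwa [inv_one, one_smul]

/-- (HECKE) for `Γ₁(M) ≤ L.Γ ≤ ± Γ₁(M)`. -/
theorem dsckm_rel_hecke (hn : 0 < n) (hΓ : Gamma1 M ≤ L.Γ)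
    (hneg : ∀ γ ∈ L.Γ, γ ∈ Gamma1 M ∨ -γ ∈ Gamma1 M)
    (δ : L.F →+* L.F)
    (hδ : ∀ r : L.R, ∃ r' : L.R, (r' : L.F) = δ (r : L.F) ∧
      L.toHol r' = (dscSigma M (dscUnit M p hpM))⁻¹ • L.toHol r)
    (ζ : ℂˣ) (hζ : IsPrimitiveRoot ζ p) {χ : L.Γ →* ℂˣ} {x y : L.F} (hx : x ≠ 0)
    (hxy : DsckmIsHeckeNorm p ζ ((δ x : L.F) : LaurentSeries ℂ) ((x : L.F) : LaurentSeries ℂ)
      ((y : L.F) : LaurentSeries ℂ))
    (h : DsckmRel L n χ x) :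
    ∃ χ' : L.Γ →* ℂˣ, DsckmRel L n χ' y ∧
      ∀ (γ : L.Γ) (γ₁ : Gamma1 M),
        ((γ : SL(2, ℤ)) = (γ₁ : SL(2, ℤ)) ∨ (γ : SL(2, ℤ)) = -(γ₁ : SL(2, ℤ))) →
          χ' γ = ∏ i, χ (Subgroup.inclusion hΓ ((dscDataT M p hpM).coc γ₁ i)) := by
  refine dsckm_rel_hecke_gen hn (dscDataT M p hpM) (dscSigma M (dscUnit M p hpM)) 1
    (fun _ => rfl) (Subgroup.inclusion hΓ) (fun _ => rfl) ?_ δ (RingHom.id L.F) hδ
    dsckmh_twist_one ζ hζ hx hxy h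
  intro γ
  rcases hneg γ γ.2 with h1 | h1
  · exact ⟨⟨γ, h1⟩, Or.inl rfl⟩
  · exact ⟨⟨-γ, h1⟩, Or.inr (neg_neg _).symm⟩

end Fermat.Agent.DS
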