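/-
Program DS / package (C), row C6 (THETA), leaf HECKE for `Γ₁(M)` in the normalisation of the geometric
correspondence (helper22).

`Th/Hecke1.lean` uses helper4's representatives `dscRep M p hpM x = c_x · α_x` (`c_∞ = σ_p`, `c_j = 1`) of
`Γ₁(M) diag(1,p) Γ₁(M)`: the diamond twist sits on the `∞`-representative.  The norm `N_α (β f)` of the
geometric Hecke correspondence (`β : q ↦ q^p`) has the twist on the FINITE representatives:
`(N_α β f)(Q^p) = f(Q^(p²)) ∏_{i<p} (Θ f)(ζ^i Q)`, i.e. it belongs to the representatives `σ_p⁻¹ · dscRep`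
(`c_∞ = 1`, `c_j = σ_p⁻¹`).  Here:

* `dsckmhTranslate` : the left translate `s · D` of a Hecke datum by an element `s` normalising `Γ`
  (`s ι(γ) s⁻¹ = ι(φ γ)`); its cocycle is `φ ∘ coc` (`dsckmhTranslate_coc`), same permutation;
* `dscDataTw M p hpM` : `σ_p⁻¹ · dscDataT M p hpM`, with `φ = ` conjugation by `σ_p⁻¹`;
* `dsckm_rel_hecke_tw` : `DsckmRel L n χ x`, `y(Q^p) = x(Q^(p²)) ∏_{i<p} (Θ x)(ζ^i Q)` with
  `toHol (Θ r) = σ_p • toHol r` ⟹ `DsckmRel L n χ' y` with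
  `χ' (± γ) = ∏ i, χ (σ_p⁻¹ (coc γ i) σ_p)` for `γ ∈ Γ₁(M)`
  (on classes: `χ'_add = χ_add ∘ dscDia M p⁻¹ ∘ dscTr M p hpM`).
-/
import Fermat.Agent.DS.C.Th.Hecke1

set_option autoImplicit false
set_option linter.unusedSectionVars false
set_option linter.unusedVariables false

noncomputable section

namespace Fermat.Agent.DS

open UpperHalfPlane ModularCurve AlgebraicCurve CongruenceSubgroup Fermat.Agent.S24
  Fermat.Agent.S16LB Fermat.Agent.G IntermediateField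
open P2MW.S_ModularForm_heckeT_slash_eq_self_of_mem_Gamma0.ModularForm.HeckeSlashInvariance
open scoped MatrixGroups Manifold ModularForm Real

/-! ### left translates of a Hecke datum -/

section Translate

variable {𝔾 Γ I : Type*} [Group 𝔾] [Group Γ]

/-- the left translate `s · D` of a Hecke datum by `s` with `s ι(γ) s⁻¹ = ι(φ γ)`, `φ` invertible. -/
def dsckmhTranslate (D : S16lbHeckeData 𝔾 Γ I) (s : 𝔾) (φ ψ : Γ →* Γ)
    (hφ : ∀ γ, s * D.ι γ * s⁻¹ = D.ι (φ γ)) (hψ : ∀ γ, ψ (φ γ) = γ) (hφψ : ∀ γ, φ (ψ γ) = γ) :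
    S16lbHeckeData 𝔾 Γ I where
  ι := D.ι
  hι := D.hι
  α i := s * D.α i
  hex γ i := by
    refine ⟨D.idx γ i, φ (D.coc γ i), ?_⟩
    rw [mul_assoc, D.spec γ i, ← hφ]
    group
  hun i j γ' h := by
    refine D.hun i j (ψ γ') ?_
    have h1 : D.ι (ψ γ') = s⁻¹ * D.ι γ' * s := by
      have := hφ (ψ γ')
      rw [hφψ] at this
      rw [← this]
      group
    rw [h1]
    have h2 : D.α i = s⁻¹ * (s * D.α i) := by group
    rw [h2, h]
    group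

theorem dsckmhTranslate_α (D : S16lbHeckeData 𝔾 Γ I) (s : 𝔾) (φ ψ : Γ →* Γ)
    (hφ : ∀ γ, s * D.ι γ * s⁻¹ = D.ι (φ γ)) (hψ : ∀ γ, ψ (φ γ) = γ) (hφψ : ∀ γ, φ (ψ γ) = γ)
    (i : I) : (dsckmhTranslate D s φ ψ hφ hψ hφψ).α i = s * D.α i := rfl

theorem dsckmhTranslate_ι (D : S16lbHeckeData 𝔾 Γ I) (s : 𝔾) (φ ψ : Γ →* Γ)
    (hφ : ∀ γ, s * D.ι γ * s⁻¹ = D.ι (φ γ)) (hψ : ∀ γ, ψ (φ γ) = γ) (hφψ : ∀ γ, φ (ψ γ) = γ) :
    (dsckmhTranslate D s φ ψ hφ hψ hφψ).ι = D.ι := rfl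

/-- the cocycle of the translate is `φ ∘ coc`, the permutation is unchanged. -/
theorem dsckmhTranslate_coc (D : S16lbHeckeData 𝔾 Γ I) (s : 𝔾) (φ ψ : Γ →* Γ)
    (hφ : ∀ γ, s * D.ι γ * s⁻¹ = D.ι (φ γ)) (hψ : ∀ γ, ψ (φ γ) = γ) (hφψ : ∀ γ, φ (ψ γ) = γ)
    (γ : Γ) (i : I) :
    (dsckmhTranslate D s φ ψ hφ hψ hφψ).idx γ i = D.idx γ i ∧
      (dsckmhTranslate D s φ ψ hφ hψ hφψ).coc γ i = φ (D.coc γ i) := by
  have h : (dsckmhTranslate D s φ ψ hφ hψ hφψ).α i *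
      (dsckmhTranslate D s φ ψ hφ hψ hφψ).ι γ =
      (dsckmhTranslate D s φ ψ hφ hψ hφψ).ι (φ (D.coc γ i)) *
        (dsckmhTranslate D s φ ψ hφ hψ hφψ).α (D.idx γ i) := by
    show s * D.α i * D.ι γ = D.ι (φ (D.coc γ i)) * (s * D.α (D.idx γ i))
    rw [mul_assoc, D.spec γ i, ← hφ]
    group
  obtain ⟨h1, h2⟩ := (dsckmhTranslate D s φ ψ hφ hψ hφψ).unique h
  exact ⟨h1.symm, h2.symm⟩

end Translate

/-! ### the twisted datum for `Γ₁(M)` -/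

section Tw

variable {L : DscLevelC} {n : ℕ} (M p : ℕ) [NeZero M] [Fact p.Prime] (hpM : ¬ p ∣ M)

/-- `σ_p`. -/
abbrev dscSigmaP : SL(2, ℤ) := dscSigma M (dscUnit M p hpM)

theorem dscSigmaP_inv_mem : (dscSigmaP M p hpM)⁻¹ ∈ Gamma0 M :=
  (Gamma0 M).inv_mem (dscSigma_mem M _)

/-- conjugation by `σ_p⁻¹` on `Γ₁(M)`. -/
def dscConjP : Gamma1 M →* Gamma1 M := dscConj M (dscSigmaP M p hpM)⁻¹ (dscSigmaP_inv_mem M p hpM)

theorem dscConjP_coe (γ : Gamma1 M) :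
    ((dscConjP M p hpM γ : Gamma1 M) : SL(2, ℤ)) =
      (dscSigmaP M p hpM)⁻¹ * γ * dscSigmaP M p hpM := by
  rw [dscConjP, dscConj_coe, inv_inv]

/-- `σ_p⁻¹ · dscDataT M p hpM` : the representatives `c_∞ = 1`, `c_j = σ_p⁻¹`. -/
def dscDataTw : S16lbHeckeData (GL (Fin 2) ℝ) (Gamma1 M) (OnePoint (ZMod p)) :=
  dsckmhTranslate (dscDataT M p hpM)
    (Matrix.SpecialLinearGroup.mapGL ℝ (dscSigmaP M p hpM)⁻¹)
    (dscConjP M p hpM) (dscConj M (dscSigmaP M p hpM) (dscSigma_mem M _))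
    (fun γ => by
      show Matrix.SpecialLinearGroup.mapGL ℝ (dscSigmaP M p hpM)⁻¹ *
          Matrix.SpecialLinearGroup.mapGL ℝ (γ : SL(2, ℤ)) *
          (Matrix.SpecialLinearGroup.mapGL ℝ (dscSigmaP M p hpM)⁻¹)⁻¹ =
        Matrix.SpecialLinearGroup.mapGL ℝ ((dscConjP M p hpM γ : Gamma1 M) : SL(2, ℤ))
      rw [dscConjP_coe, map_mul, map_mul, map_inv, inv_inv])
    (fun γ => by
      apply Subtype.ext
      rw [dscConj_coe, dscConjP_coe]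
      group)
    (fun γ => by
      apply Subtype.ext
      rw [dscConjP_coe, dscConj_coe]
      group)

theorem dscDataTw_coc (γ : Gamma1 M) (i : OnePoint (ZMod p)) :
    (dscDataTw M p hpM).coc γ i = dscConjP M p hpM ((dscDataT M p hpM).coc γ i) :=
  (dsckmhTranslate_coc _ _ _ _ _ _ _ γ i).2

theorem dscDataTw_idx (γ : Gamma1 M) (i : OnePoint (ZMod p)) :
    (dscDataTw M p hpM).idx γ i = (dscDataT M p hpM).idx γ i :=
  (dsckmhTranslate_coc _ _ _ _ _ _ _ γ i).1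

theorem dscDataTw_α (x : OnePoint (ZMod p)) :
    (dscDataTw M p hpM).α x =
      Matrix.SpecialLinearGroup.mapGL ℝ (dsckmhCorr p 1 (dscSigmaP M p hpM)⁻¹ x) * heckeRep p x := by
  show Matrix.SpecialLinearGroup.mapGL ℝ (dscSigmaP M p hpM)⁻¹ *
      (Matrix.SpecialLinearGroup.mapGL ℝ (dscCorr M p hpM x) * heckeRep p x) = _
  induction x using OnePoint.rec with
  | infty =>
    show Matrix.SpecialLinearGroup.mapGL ℝ (dscSigmaP M p hpM)⁻¹ *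
      (Matrix.SpecialLinearGroup.mapGL ℝ (dscSigmaP M p hpM) * heckeRep p OnePoint.infty) =
      Matrix.SpecialLinearGroup.mapGL ℝ 1 * heckeRep p OnePoint.infty
    rw [← mul_assoc, ← map_mul, inv_mul_cancel]
  | coe j =>
    show Matrix.SpecialLinearGroup.mapGL ℝ (dscSigmaP M p hpM)⁻¹ *
      (Matrix.SpecialLinearGroup.mapGL ℝ 1 * heckeRep p (j : OnePoint (ZMod p))) =
      Matrix.SpecialLinearGroup.mapGL ℝ (dscSigmaP M p hpM)⁻¹ * heckeRep p (j : OnePoint (ZMod p))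
    rw [map_one, one_mul]

/-- the analytic Hecke operator in the normalisation of the geometric correspondence:
`τ ↦ G(pτ) ∏_j (σ_p • G)((τ + j)/p)`. -/
def dsckmHeckeHolTw (G : HolRing) : HolRing :=
  dsckmHeckeHol (dsckmhCorr p 1 (dscSigmaP M p hpM)⁻¹) G

/-- it is the operator of `Th/Hecke1.lean` applied to `σ_p • G`. -/
theorem dsckmHeckeHolTw_eq (G : HolRing) :
    dsckmHeckeHolTw M p hpM G = dsckmHeckeHol1 M p hpM (dscSigmaP M p hpM • G) := by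
  apply Subtype.ext
  funext τ
  rw [dsckmHeckeHolTw, dsckmHeckeHol1, dsckmHeckeHol_apply', dsckmHeckeHol_apply']
  refine Finset.prod_congr rfl fun x _ => ?_
  induction x using OnePoint.rec with
  | infty =>
    show ((((1 : SL(2, ℤ))⁻¹ • G : HolRing)) : ℍ → ℂ) _ =
      ((((dscSigmaP M p hpM)⁻¹ • (dscSigmaP M p hpM • G) : HolRing)) : ℍ → ℂ) _
    rw [inv_one, one_smul, inv_smul_smul]
  | coe j =>
    show (((((dscSigmaP M p hpM)⁻¹)⁻¹ • G : HolRing)) : ℍ → ℂ) _ =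
      ((((1 : SL(2, ℤ))⁻¹ • (dscSigmaP M p hpM • G) : HolRing)) : ℍ → ℂ) _
    rw [inv_inv, inv_one, one_smul]

/-- (HECKE) in the normalisation of the geometric correspondence, for `Γ₁(M) ≤ L.Γ ≤ ± Γ₁(M)`. -/
theorem dsckm_rel_hecke_tw (hn : 0 < n) (hΓ : Gamma1 M ≤ L.Γ)
    (hneg : ∀ γ ∈ L.Γ, γ ∈ Gamma1 M ∨ -γ ∈ Gamma1 M)
    (Θ : L.F →+* L.F)
    (hΘ : ∀ r : L.R, ∃ r' : L.R, (r' : L.F) = Θ (r : L.F) ∧
      L.toHol r' = dscSigmaP M p hpM • L.toHol r)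
    (ζ : ℂˣ) (hζ : IsPrimitiveRoot ζ p) {χ : L.Γ →* ℂˣ} {x y : L.F} (hx : x ≠ 0)
    (hxy : DsckmIsHeckeNorm p ζ ((x : L.F) : LaurentSeries ℂ) ((Θ x : L.F) : LaurentSeries ℂ)
      ((y : L.F) : LaurentSeries ℂ))
    (h : DsckmRel L n χ x) :
    ∃ χ' : L.Γ →* ℂˣ, DsckmRel L n χ' y ∧
      ∀ (γ : L.Γ) (γ₁ : Gamma1 M),
        ((γ : SL(2, ℤ)) = (γ₁ : SL(2, ℤ)) ∨ (γ : SL(2, ℤ)) = -(γ₁ : SL(2, ℤ))) →
          χ' γ = ∏ i, χ (Subgroup.inclusion hΓ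
            (dscConjP M p hpM ((dscDataT M p hpM).coc γ₁ i))) := by
  have hΘ' : ∀ r : L.R, ∃ r' : L.R, (r' : L.F) = Θ (r : L.F) ∧
      L.toHol r' = ((dscSigmaP M p hpM)⁻¹)⁻¹ • L.toHol r := by
    intro r
    obtain ⟨r', h1, h2⟩ := hΘ r
    exact ⟨r', h1, by rw [inv_inv]; exact h2⟩
  obtain ⟨χ', hrel, hχ'⟩ := dsckm_rel_hecke_gen hn (dscDataTw M p hpM) 1 (dscSigmaP M p hpM)⁻¹
    (dscDataTw_α M p hpM) (Subgroup.inclusion hΓ) (fun _ => rfl) (by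
      intro γ
      rcases hneg γ γ.2 with h1 | h1
      · exact ⟨⟨γ, h1⟩, Or.inl rfl⟩
      · exact ⟨⟨-γ, h1⟩, Or.inr (neg_neg _).symm⟩)
    (RingHom.id L.F) Θ dsckmh_twist_one hΘ' ζ hζ hx hxy h
  refine ⟨χ', hrel, fun γ γ₁ hγ => ?_⟩
  rw [hχ' γ γ₁ hγ]
  exact Finset.prod_congr rfl fun i _ => by rw [dscDataTw_coc]

end Tw

/-! ### the transfer on classes -/

section Classes

variable (M p : ℕ) [NeZero M] [Fact p.Prime] (hpM : ¬ p ∣ M)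

/-- the lower right entry of `σ_p⁻¹` is `p⁻¹` mod `M`. -/
theorem dscSigmaP_inv_entry :
    ((((dscSigmaP M p hpM)⁻¹ : SL(2, ℤ)) 1 1 : ℤ) : ZMod M) =
      (((dscUnit M p hpM)⁻¹ : (ZMod M)ˣ) : ZMod M) := by
  have h1 : (((dscSigmaP M p hpM)⁻¹ : SL(2, ℤ)) 1 1 : ℤ) = (dscSigmaP M p hpM) 0 0 := by
    rw [Matrix.SpecialLinearGroup.SL2_inv_expl]
    rfl
  rw [h1]
  have hdet := dsa_det_zmod M (dscSigmaP M p hpM)
  have h10 : (((dscSigmaP M p hpM) 1 0 : ℤ) : ZMod M) = 0 :=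
    Gamma0_mem.mp (dscSigma_mem M _)
  rw [h10, mul_zero, sub_zero, dscSigma_entry] at hdet
  exact Units.eq_inv_of_mul_eq_one_left (by rw [mul_comm]; exact hdet)

/-- on classes, the cocycle `σ_p⁻¹ (coc γ i) σ_p` of the twisted datum is `⟨p⟩⁻¹ ∘ T_p`. -/
theorem dsc_sum_cls_conjP (γ : Gamma1 M) :
    ∑ i, dscCls M (Additive.ofMul (dscConjP M p hpM ((dscDataT M p hpM).coc γ i))) =
      dscDia M (dscUnit M p hpM)⁻¹ (dscTr M p hpM (dscCls M (Additive.ofMul γ))) := by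
  have h1 : dscTr M p hpM (dscCls M (Additive.ofMul γ)) =
      ∑ i, dscCls M (Additive.ofMul ((dscDataT M p hpM).coc γ i)) :=
    (dscDataT M p hpM).trEnd_of γ
  rw [h1, map_sum]
  refine Finset.sum_congr rfl fun i _ => ?_
  rw [dscDia_cls M (dscUnit M p hpM)⁻¹ (dscSigmaP M p hpM)⁻¹ (dscSigmaP_inv_mem M p hpM)
    (dscSigmaP_inv_entry M p hpM)]
  rfl

/-- on classes, the cocycle of `dscDataT` is `T_p`. -/
theorem dsc_sum_cls_coc (γ : Gamma1 M) :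
    ∑ i, dscCls M (Additive.ofMul ((dscDataT M p hpM).coc γ i)) =
      dscTr M p hpM (dscCls M (Additive.ofMul γ)) :=
  ((dscDataT M p hpM).trEnd_of γ).symm

end Classes

end Fermat.Agent.DS
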