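/-
Program DS / package (C), row C6 (THETA), leaf HECKE: the Hecke law on the CHARACTER side (helper22).

`Th/Hecke1.lean` / `Th/HeckeTw.lean` (the analytic Hecke operator of `Γ₁(M)` in the two normalisations) +
helper13's `Th/Char.lean` (`dscthChar hM Γ hΓ n a`, the multiplicative character of `Γ ≤ ±Γ₁(M)` attached to
`a : dscAb M →+ ZMod n`) + helper4's `Per/DiaMul.lean` (`dscDia_comm_dscTr`), `Per/Main.lean` (`dscTAtw`):

* `dsckm_rel_hecke_char`   : `DsckmRel L n χ_a x`, `y(Q^p) = (δ x)(Q^(p²)) ∏ x(ζ^i Q)` (`δ = Θ_{p⁻¹}`)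
  ⟹ `DsckmRel L n χ_{a ∘ dscTr M p} y`;
* `dsckm_rel_hecke_tw_char` : `DsckmRel L n χ_a x`, `y(Q^p) = x(Q^(p²)) ∏ (Θ x)(ζ^i Q)` (`Θ = Θ_p`, the norm
  series (NS) of the geometric correspondence) ⟹ `DsckmRel L n χ_{a ∘ dscTAtw M p} y`   (= TH-T).
-/
import Fermat.Agent.DS.C.Th.HeckeTw
import Fermat.Agent.DS.C.Th.Char

set_option autoImplicit false
set_option linter.unusedSectionVars false
set_option linter.unusedVariables false

noncomputable section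

namespace Fermat.Agent.DS

open UpperHalfPlane ModularCurve AlgebraicCurve CongruenceSubgroup Fermat.Agent.S24
  Fermat.Agent.S16LB Fermat.Agent.G IntermediateField
open P2MW.S_ModularForm_heckeT_slash_eq_self_of_mem_Gamma0.ModularForm.HeckeSlashInvariance
open scoped MatrixGroups Manifold ModularForm Real

variable {L : DscLevelC} {n : ℕ} [NeZero n] (M p : ℕ) [NeZero M] [Fact p.Prime] (hpM : ¬ p ∣ M)

/-- a character of `L.Γ ≤ ±Γ₁(M)` whose values at `±γ₁` are those of `dscthChar1 n b` at `γ₁` is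
`dscthChar .. b`. -/
theorem dsckmh_char_eq (hM : 3 ≤ M) (hneg : ∀ γ ∈ L.Γ, γ ∈ Gamma1 M ∨ -γ ∈ Gamma1 M)
    (b : dscAb M →+ ZMod n) {χ' : L.Γ →* ℂˣ}
    (h : ∀ (γ : L.Γ) (γ₁ : Gamma1 M),
      ((γ : SL(2, ℤ)) = (γ₁ : SL(2, ℤ)) ∨ (γ : SL(2, ℤ)) = -(γ₁ : SL(2, ℤ))) →
        χ' γ = dscthChar1 n b γ₁) :
    χ' = dscthChar hM L.Γ hneg n b := by
  refine MonoidHom.ext fun γ => ?_
  rw [dscthChar_apply]
  refine h γ _ ?_
  rcases dscthProj_coe hM L.Γ hneg γ with h1 | h1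
  · exact Or.inl h1.symm
  · exact Or.inr (by rw [h1, neg_neg])

/-- (HECKE on characters, representatives `dscRep`) -/
theorem dsckm_rel_hecke_char (hM : 3 ≤ M) (hΓ : Gamma1 M ≤ L.Γ)
    (hneg : ∀ γ ∈ L.Γ, γ ∈ Gamma1 M ∨ -γ ∈ Gamma1 M)
    (δ : L.F →+* L.F)
    (hδ : ∀ r : L.R, ∃ r' : L.R, (r' : L.F) = δ (r : L.F) ∧
      L.toHol r' = (dscSigma M (dscUnit M p hpM))⁻¹ • L.toHol r)
    (ζ : ℂˣ) (hζ : IsPrimitiveRoot ζ p) {a : dscAb M →+ ZMod n} {x y : L.F} (hx : x ≠ 0)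
    (hxy : DsckmIsHeckeNorm p ζ ((δ x : L.F) : LaurentSeries ℂ) ((x : L.F) : LaurentSeries ℂ)
      ((y : L.F) : LaurentSeries ℂ))
    (h : DsckmRel L n (dscthChar hM L.Γ hneg n a) x) :
    DsckmRel L n (dscthChar hM L.Γ hneg n (a.comp (dscTr M p hpM))) y := by
  obtain ⟨χ', hrel, hχ'⟩ :=
    dsckm_rel_hecke M p hpM (NeZero.pos n) hΓ hneg δ hδ ζ hζ hx hxy h
  have e : χ' = dscthChar hM L.Γ hneg n (a.comp (dscTr M p hpM)) := by
    refine dsckmh_char_eq M hM hneg _ fun γ γ₁ hγ => ?_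
    rw [hχ' γ γ₁ hγ]
    have h1 : ∀ i, dscthChar hM L.Γ hneg n a
        (Subgroup.inclusion hΓ ((dscDataT M p hpM).coc γ₁ i)) =
        dscthChar1 n a ((dscDataT M p hpM).coc γ₁ i) := by
      intro i
      rw [dscthChar_apply]
      congr 1
      exact dscthProj_incl hM L.Γ hneg hΓ _
    rw [Finset.prod_congr rfl fun i _ => h1 i, dscthChar1_prod_coc]
    rfl
  rw [← e]
  exact hrel

/-- (HECKE on characters, normalisation of the geometric correspondence) = TH-T. -/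
theorem dsckm_rel_hecke_tw_char (hM : 3 ≤ M) (hΓ : Gamma1 M ≤ L.Γ)
    (hneg : ∀ γ ∈ L.Γ, γ ∈ Gamma1 M ∨ -γ ∈ Gamma1 M)
    (Θ : L.F →+* L.F)
    (hΘ : ∀ r : L.R, ∃ r' : L.R, (r' : L.F) = Θ (r : L.F) ∧
      L.toHol r' = dscSigmaP M p hpM • L.toHol r)
    (ζ : ℂˣ) (hζ : IsPrimitiveRoot ζ p) {a : dscAb M →+ ZMod n} {x y : L.F} (hx : x ≠ 0)
    (hxy : DsckmIsHeckeNorm p ζ ((x : L.F) : LaurentSeries ℂ) ((Θ x : L.F) : LaurentSeries ℂ)
      ((y : L.F) : LaurentSeries ℂ))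
    (h : DsckmRel L n (dscthChar hM L.Γ hneg n a) x) :
    DsckmRel L n (dscthChar hM L.Γ hneg n (a.comp (dscTAtw M p))) y := by
  obtain ⟨χ', hrel, hχ'⟩ :=
    dsckm_rel_hecke_tw M p hpM (NeZero.pos n) hΓ hneg Θ hΘ ζ hζ hx hxy h
  have e : χ' = dscthChar hM L.Γ hneg n (a.comp (dscTAtw M p)) := by
    refine dsckmh_char_eq M hM hneg _ fun γ γ₁ hγ => ?_
    rw [hχ' γ γ₁ hγ]
    have h1 : ∀ i, dscthChar hM L.Γ hneg n a
        (Subgroup.inclusion hΓ (dscConjP M p hpM ((dscDataT M p hpM).coc γ₁ i))) =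
        dscthChar1 n (a.comp (dscDia M (dscUnit M p hpM)⁻¹)) ((dscDataT M p hpM).coc γ₁ i) := by
      intro i
      rw [dscthChar_apply]
      have h2 : dscthProj hM L.Γ hneg
          (Subgroup.inclusion hΓ (dscConjP M p hpM ((dscDataT M p hpM).coc γ₁ i))) =
          dscConjP M p hpM ((dscDataT M p hpM).coc γ₁ i) :=
        dscthProj_incl hM L.Γ hneg hΓ _
      rw [h2]
      exact dscthChar1_conj n a (dscUnit M p hpM)⁻¹ (dscSigmaP M p hpM)⁻¹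
        (dscSigmaP_inv_mem M p hpM) (dscSigmaP_inv_entry M p hpM) _
    rw [Finset.prod_congr rfl fun i _ => h1 i, dscthChar1_prod_coc]
    have h3 : (a.comp (dscDia M (dscUnit M p hpM)⁻¹)).comp (dscDataT M p hpM).trEnd =
        a.comp (dscTAtw M p) := by
      rw [dscTAtw_eq M p hpM, ← dscDia_comm_dscTr M p hpM, AddMonoidHom.comp_assoc]
      rfl
    rw [h3]
  rw [← e]
  exact hrel

end Fermat.Agent.DS
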