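/-
Program DS (S48), package (C), row C6 (THETA), file NormSeries (helper13): the norm series over `ℂ`.

The `Γ₁(M)`-analogue of `gkt_isHeckeNorm` (`G/Kum/Theta.lean`): the norm-series identity (NS) of
row C5 (`DsccjNS M p d`, helper28's `Conj/Congr.lean`: an identity in `ℚ̄((q))`) is transported to
`ℂ((q))` along `dscthIota` and put into the shape `DsckmIsHeckeNorm` consumed by helper22's
`dsckm_rel_hecke` (`Th/Hecke1.lean`):

  `ι (N_α (β f)) (Q^p) = (ι f)(Q^(p²)) · ∏_{i<p} (δ (ι f))(ζ^i Q)`,   `δ ∘ ι = ι ∘ ⟨d⟩`.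

The hypothesis `hNS` below is the UNFOLDED body of `DsccjNS M p d` (so that this file does not
import the `EsTor` stack); `(h : DsccjNS M p d)` can be passed directly.
-/
import Mathlib
import Fermat.Agent.DS.C.HeckeFun
import Fermat.Agent.DS.C.Diamond
import Fermat.Agent.DS.C.Th.DescInst
import Fermat.Agent.DS.C.Th.Kum.Hecke
import Fermat.Agent.G.Conj.Formal

set_option autoImplicit false
set_option linter.unusedSectionVars false
set_option linter.style.haveILetI false

noncomputable section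

namespace Fermat.Agent.DS

open ModularCurve AlgebraicCurve HahnSeries Fermat.Agent.S24 Fermat.Agent.G

theorem dscth_twist_eq_rot {R : Type*} [CommRing R] (c : Rˣ) (f : LaurentSeries R) :
    gcjTwist c f = gcjfRot c f := by
  ext m
  rw [gcjTwist_coeff, gcjfRot_coeff]

/-- **the norm series over `ℂ`**, in the shape consumed by `dsckm_rel_hecke`. -/
theorem dscth_isHeckeNorm (M : ℕ) [NeZero M] {p : ℕ} [Fact p.Prime] (d : (ZMod M)ˣ)
    (hNS : haveI : NeZero p := ⟨(Fact.out : p.Prime).ne_zero⟩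
      ∃ ζ₀ : (AlgebraicClosure ℚ)ˣ, IsPrimitiveRoot ζ₀ p ∧
        ∀ f : dscFieldBar M 1,
          qExpand (AlgebraicClosure ℚ) p
              ((dscHeckeFun M 1 p f : dscFieldBar M 1) : LaurentSeries (AlgebraicClosure ℚ)) =
            qExpand (AlgebraicClosure ℚ) (p * p) (f : LaurentSeries (AlgebraicClosure ℚ)) *
              gcjfProd p ζ₀ ((dscDiamondAut (AlgebraicClosure ℚ) M 1 d f : dscFieldBar M 1) :
                LaurentSeries (AlgebraicClosure ℚ)))
    (δ : dscthFC M →+* dscthFC M)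
    (hδ : ∀ f : dscFieldBar M 1,
      dscthIota M (dscDiamondAut (AlgebraicClosure ℚ) M 1 d f) = δ (dscthIota M f)) :
    ∃ ζ : ℂˣ, IsPrimitiveRoot ζ p ∧ ∀ f : dscFieldBar M 1,
      DsckmIsHeckeNorm p ζ ((dscthIota M f : dscthFC M) : LaurentSeries ℂ)
        ((δ (dscthIota M f) : dscthFC M) : LaurentSeries ℂ)
        ((dscthIota M (dscHeckeFun M 1 p f) : dscthFC M) : LaurentSeries ℂ) := by
  haveI : NeZero p := ⟨(Fact.out : p.Prime).ne_zero⟩
  haveI : NeZero (p * p) := ⟨Nat.mul_ne_zero (NeZero.ne p) (NeZero.ne p)⟩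
  obtain ⟨ζ₀, hζ₀, h⟩ := hNS
  refine ⟨Units.map (iotaBar : QBar →* ℂ) ζ₀, ?_, fun f => ?_⟩
  · exact hζ₀.map_of_injective (f := Units.map (iotaBar : QBar →* ℂ))
      (Units.map_injective iotaBar.injective)
  · rw [dsckmIsHeckeNorm_iff, ← hδ f, coe_dscthIota, coe_dscthIota, coe_dscthIota,
      ← dsc_coeffMap_qExpand, ← dsc_coeffMap_qExpand, h f, map_mul]
    congr 1
    unfold gcjfProd
    rw [map_prod]
    refine Finset.prod_congr rfl fun i _ => ?_
    rw [gcjfRot_coeffMap, dscth_twist_eq_rot, map_pow]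

end Fermat.Agent.DS
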