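/-
Program DS (S48), package (C), row C6 (THETA), file Theta (helper13): THE JOIN.

`Θ : Hom_PE(Γ₁(M)^ab, ℤ/n) → J₁(M)(ℚ̄)[n]`, injective, Hecke- and diamond-equivariant
(the `Γ₁(M)`-analogue of `gkt_theta`, `G/Kum/Theta.lean`).
-/
import Mathlib
import Fermat.Agent.DS.C.Br.Level
import Fermat.Agent.DS.C.Br.LevelC
import Fermat.Agent.DS.C.Br.DiamondBC
import Fermat.Agent.DS.C.Br.LevelP
import Fermat.Agent.DS.C.FF.Main
import Fermat.Agent.DS.C.Conj.Congr
import Fermat.Agent.DS.C.Th.DescInst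
import Fermat.Agent.DS.C.Th.Kum.Main
import Fermat.Agent.DS.C.Th.Char
import Fermat.Agent.DS.C.Th.HeckeChar
import Fermat.Agent.DS.C.Th.NormSeries
import Fermat.Agent.DS.C.Th.DiaClass

set_option autoImplicit false
set_option linter.unusedSectionVars false
set_option linter.unusedVariables false
set_option linter.style.haveILetI false

noncomputable section

namespace Fermat.Agent.DS

open UpperHalfPlane ModularCurve AlgebraicCurve CongruenceSubgroup Fermat.Agent.S24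
  Fermat.Agent.G IntermediateField
open scoped MatrixGroups

local notation "Qb" => AlgebraicClosure ℚ

/-! ### the level datum of `X₁(M)` over `ℂ` -/

section Level

variable (M : ℕ) [NeZero M]

/-- the level datum of `X₁(M)` over `ℂ`. -/
abbrev dscthL : DscLevelC := dscbrLevel ℂ (RingHom.id ℂ) M

theorem dscthL_Γ (hM : 6 ≤ M) : (dscthL M).Γ = dscbrGamma M :=
  dscbrLevel_Γ ℂ (RingHom.id ℂ) M hM

theorem dscthL_le : Gamma1 M ≤ (dscthL M).Γ := dscbrLevel_Gamma1_le ℂ (RingHom.id ℂ) M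

theorem dscthL_neg (hM : 6 ≤ M) : ∀ γ ∈ (dscthL M).Γ, γ ∈ Gamma1 M ∨ -γ ∈ Gamma1 M :=
  fun _ hγ => dscbrLevel_mem_or_neg_mem ℂ (RingHom.id ℂ) M hM hγ

/-- `±Γ₁(M)` is normalised by `Γ₀(M)`. -/
theorem dscthL_conj_mem (hM : 6 ≤ M) {σ γ : SL(2, ℤ)} (hσ : σ ∈ Gamma0 M)
    (hγ : γ ∈ (dscthL M).Γ) : σ * γ * σ⁻¹ ∈ (dscthL M).Γ := by
  refine dscbrLevel_Gamma_le ℂ (RingHom.id ℂ) M (dscbrGamma_of_mem_or_neg_mem ?_)
  rcases dscthL_neg M hM γ hγ with h | h
  · left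
    exact (dscConj M σ hσ ⟨γ, h⟩).2
  · right
    have h1 := (dscConj M σ hσ ⟨-γ, h⟩).2
    rw [dscConj_coe] at h1
    have e : σ * (-γ) * σ⁻¹ = -(σ * γ * σ⁻¹) := by
      rw [mul_neg, neg_mul]
    rw [← e]
    exact h1

/-- the lower right entry of `σ_d⁻¹` is `d⁻¹` mod `M`. -/
theorem dscth_sigma_inv_entry (d : (ZMod M)ˣ) :
    ((((dscSigma M d)⁻¹ : SL(2, ℤ)) 1 1 : ℤ) : ZMod M) = ((d⁻¹ : (ZMod M)ˣ) : ZMod M) := by
  have h1 : (((dscSigma M d)⁻¹ : SL(2, ℤ)) 1 1 : ℤ) = (dscSigma M d) 0 0 := by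
    rw [Matrix.SpecialLinearGroup.SL2_inv_expl]
    rfl
  rw [h1]
  have hdet := dsa_det_zmod M (dscSigma M d)
  have h10 : (((dscSigma M d) 1 0 : ℤ) : ZMod M) = 0 := Gamma0_mem.mp (dscSigma_mem M d)
  rw [h10, mul_zero, sub_zero, dscSigma_entry] at hdet
  exact Units.eq_inv_of_mul_eq_one_left (by rw [mul_comm]; exact hdet)

end Level

/-! ### the diamond law over `ℂ` (helper8's `Th/Dia.lean`), as a predicate -/

/-- **the diamond law**: for `σ ∈ Γ₀(M)` with `σ₁₁ ≡ u`, if `x` has (up to `n`-th powers) an `n`-th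
root with multiplier `χ`, then `⟨u⟩ x` has one with multiplier `γ ↦ χ (σ⁻¹ γ σ)`. -/
def DscthDiaLaw (M : ℕ) [NeZero M] (n : ℕ) : Prop :=
  ∀ (σ : SL(2, ℤ)) (_ : σ ∈ Gamma0 M) (u : (ZMod M)ˣ),
    (u : ZMod M) = ((σ 1 1 : ℤ) : ZMod M) →
    ∀ χ χ' : (dscthL M).Γ →* ℂˣ,
      (∀ γ : (dscthL M).Γ, ∃ hmem : σ⁻¹ * (γ : SL(2, ℤ)) * σ ∈ (dscthL M).Γ,
        χ' γ = χ ⟨σ⁻¹ * (γ : SL(2, ℤ)) * σ, hmem⟩) →
      ∀ x : (dscthL M).F, DsckmRel (dscthL M) n χ x →
        DsckmRel (dscthL M) n χ' (dscbrDiamond ℂ (RingHom.id ℂ) M u x)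

/-! ### the Kummer family -/

section Family

variable (M : ℕ) [NeZero M] (hM : 6 ≤ M) (n : ℕ) [NeZero n]

include hM in
theorem dscth_three_le : 3 ≤ M := le_trans (by norm_num) hM

/-- the character of `±Γ₁(M)` attached to `a : Γ₁(M)^ab →+ ℤ/n`. -/
abbrev dscthChi (a : dscAb M →+ ZMod n) : (dscthL M).Γ →* ℂˣ :=
  dscthChar (dscth_three_le M hM) (dscthL M).Γ (dscthL_neg M hM) n a

theorem dscthChi_PE (a : dscAb M →+ ZMod n) (ha : ∀ s ∈ dscPE M, a s = 0) :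
    DsckmPE (dscthL M) (dscthChi M hM n a) :=
  (dscthChar_PE_iff (dscth_three_le M hM) (dscthL M).Γ (dscthL_neg M hM) n (dscthL_le M) a).mpr ha

theorem dscth_exists (a : dscAb M →+ ZMod n) (ha : ∀ s ∈ dscPE M, a s = 0) :
    ∃ x : (dscthL M).F, x ≠ 0 ∧ DsckmRoot (dscthL M) n (dscthChi M hM n a) x :=
  dsckm_exists_of_char (NeZero.pos n) _ (dscthChi_PE M hM n a ha)
    (fun γ => dscthChar_pow (dscth_three_le M hM) (dscthL M).Γ (dscthL_neg M hM) n a γ)

theorem dscth_rel_of_root {χ : (dscthL M).Γ →* ℂˣ} {x : (dscthL M).F}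
    (h : DsckmRoot (dscthL M) n χ x) : DsckmRel (dscthL M) n χ x :=
  ⟨1, one_ne_zero, by rwa [one_pow, mul_one]⟩

theorem dscth_gdRel_symm {F : Type*} [Field F] {m : ℕ} {x y : F} (h : GdRel m x y) :
    GdRel m y x := by
  obtain ⟨g, hg, rfl⟩ := h
  refine ⟨g⁻¹, inv_ne_zero hg, ?_⟩
  rw [mul_assoc, ← mul_pow, mul_inv_cancel₀ hg, one_pow, mul_one]

variable {A : Type*} [AddCommGroup A] (c : A →+ (dscAb M →+ ZMod n))
  (hPE : ∀ a : A, ∀ s ∈ dscPE M, c a s = 0)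

/-- the Kummer family. -/
def dscthX (a : A) : dscthFC M := (dscth_exists M hM n (c a) (hPE a)).choose

theorem dscthX_ne_zero (a : A) : dscthX M hM n c hPE a ≠ 0 :=
  (dscth_exists M hM n (c a) (hPE a)).choose_spec.1

theorem dscthX_root (a : A) :
    DsckmRoot (dscthL M) n (dscthChi M hM n (c a)) (dscthX M hM n c hPE a) :=
  (dscth_exists M hM n (c a) (hPE a)).choose_spec.2

theorem dscthX_rel (a : A) :
    DsckmRel (dscthL M) n (dscthChi M hM n (c a)) (dscthX M hM n c hPE a) :=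
  dscth_rel_of_root M n (dscthX_root M hM n c hPE a)

end Family

/-! ### the theorem -/

section Main

variable (M : ℕ) [NeZero M] (hM : 6 ≤ M) (n : ℕ) [NeZero n]

/-- the diamond `⟨u⟩` of `ℂ·F₁(M)` as a ring homomorphism. -/
abbrev dscthDelta (u : (ZMod M)ˣ) : dscthFC M →+* dscthFC M :=
  ((dscbrDiamond ℂ (RingHom.id ℂ) M u : dscbrField ℂ M ≃ₐ[ℂ] dscbrField ℂ M) :
    dscbrField ℂ M →+* dscbrField ℂ M)

theorem dscthIota_ne_zero {f : dscFieldBar M 1} (hf : f ≠ 0) : dscthIota M f ≠ 0 :=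
  (map_ne_zero_iff _ (dscthIota M).injective).mpr hf

include hM in
/-- **THETA for `Γ₁(M)`**, general `n`, general source `A ↪ Hom_PE(Γ₁(M)^ab, ℤ/n)`; the diamond
law over `ℂ` (`hDia`) and the norm series of row C5 (`hNS`) are explicit hypotheses. -/
theorem dscth_theta_gen (hDia : DscthDiaLaw M n)
    (hNS : ∀ (p : ℕ) [Fact p.Prime] (hpM : ¬ p ∣ M),
      haveI : NeZero p := ⟨(Fact.out : p.Prime).ne_zero⟩
      DsccjNS M p (dscUnit M p hpM))
    {A : Type*} [AddCommGroup A] (c : A →+ (dscAb M →+ ZMod n)) (hc : Function.Injective c)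
    (hPE : ∀ a : A, ∀ s ∈ dscPE M, c a s = 0) :
    ∃ Θ : A →+ DscJ M, Function.Injective Θ ∧
      (∀ a, Θ a ∈ Pic0.torsion Qb (dscFieldBar M 1) n) ∧
      (∀ (p : ℕ) (hp : p.Prime), ¬ p ∣ M → ∀ a a' : A,
        c a' = (c a).comp (dscTAtw M p) → Θ a' = dscHeckeBar M ⟨p, hp⟩ (Θ a)) ∧
      (∀ (d : (ZMod M)ˣ) (a a' : A), c a' = (c a).comp (dscDia M d) →
        Θ a' = dscDiamondBar M d⁻¹ (Θ a)) := by
  have hn : 0 < n := NeZero.pos n
  have hM3 : 3 ≤ M := dscth_three_le M hM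
  have hsep : IsSepGen QBar (dscthJBar M) := dscbr_isSepGen_bar M
  have hX0 := dscthX_ne_zero M hM n c hPE
  have hXrel := dscthX_rel M hM n c hPE
  have hXdiv : ∀ a, GdDiv ℂ (dscthFC M) n (dscthX M hM n c hPE a) := fun a =>
    dsckm_div_of_root (L := dscthL M) hn (dscthChi_PE M hM n (c a) (hPE a)) (hX0 a)
      (dscthX_root M hM n c hPE a)
  have hXadd : ∀ a b, GdRel n (dscthX M hM n c hPE a * dscthX M hM n c hPE b)
      (dscthX M hM n c hPE (a + b)) := by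
    intro a b
    have h1 := dsckm_rel_mul (hXrel a) (hXrel b)
    have h2 := hXrel (a + b)
    have e : dscthChi M hM n (c (a + b)) = dscthChi M hM n (c a) * dscthChi M hM n (c b) := by
      rw [map_add]
      exact dscthChar_add hM3 (dscthL M).Γ (dscthL_neg M hM) n (c a) (c b)
    rw [e] at h2
    exact dsckm_rel_unique (L := dscthL M) hn (mul_ne_zero (hX0 a) (hX0 b)) (hX0 (a + b)) h1 h2
  have hXinj : ∀ a, GdRel n 1 (dscthX M hM n c hPE a) → a = 0 := by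
    intro a hrel
    obtain ⟨g, hg, hX⟩ := hrel
    rw [one_mul] at hX
    have h1 : DsckmRel (dscthL M) n 1 (dscthX M hM n c hPE a) := by
      rw [hX]
      exact dsckm_rel_pow_self (L := dscthL M) hn hg
    have h2 := dsckm_rel_char_unique (L := dscthL M) hn (hX0 a) (hXrel a) h1
    have h3 := (dscthChar_eq_one_iff hM3 (dscthL M).Γ (dscthL_neg M hM) n (dscthL_le M) (c a)).mp h2
    exact hc (by rw [h3, map_zero])
  obtain ⟨Θ, hinj, htor, hΘ⟩ := dscthd_theta M hsep n hn (dsckm_fin (L := dscthL M) hn)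
    (dscthX M hM n c hPE) hX0 hXdiv hXadd hXinj
  refine ⟨Θ, hinj, htor, ?_, ?_⟩
  · -- TH-T
    intro p hp hpM a a' haa'
    haveI : Fact p.Prime := ⟨hp⟩
    haveI : NeZero p := ⟨hp.ne_zero⟩
    have hin : DscHeckeInputsAlong Qb M 1 p :=
      dscff_heckeInputs M 1 p (dscbr_isSepGen_bar M) (dscbrp_isSepGen_bar M p hp)
    symm
    refine dscthd_theta_equivariant M hsep n hn (dscthX M hM n c hPE) Θ hΘ
      (dscHeckeBar M ⟨p, hp⟩) (dscHeckeFun M 1 p) ?_ a a' ?_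
    · intro f x hf hrep
      obtain ⟨D, rfl, hD⟩ := hrep
      obtain ⟨E, hE1, hE2, hE3⟩ := dscff_hecke_class M ⟨p, hp⟩ hin D n f hf hD
      exact ⟨hE2, E, hE1, hE3⟩
    · intro f hf hrel
      obtain ⟨ζ, hζ, hnorm⟩ := dscth_isHeckeNorm M (dscUnit M p hpM) (hNS p hpM)
        (dscthDelta M (dscUnit M p hpM)) (fun f => dscbr_iota_diamondAut M _ f)
      have hf' : dscthIota M f ≠ 0 := dscthIota_ne_zero M hf
      have h1 : DsckmRel (dscthL M) n (dscthChi M hM n (c a)) (dscthIota M f) :=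
        dsckm_rel_of_gdRel (hXrel a) (dscth_gdRel_symm hrel)
      have h2 := dsckm_rel_hecke_tw_char (L := dscthL M) M p hpM hM3 (dscthL_le M)
        (dscthL_neg M hM) (dscthDelta M (dscUnit M p hpM))
        (fun r => dscbrLevel_diamond ℂ (RingHom.id ℂ) M (dscSigmaP M p hpM) (dscSigma_mem M _)
          (dscUnit M p hpM) (dscSigma_entry M _).symm r) ζ hζ hf' (hnorm f) h1
      rw [← haa'] at h2
      have hH0 : dscthIota M (dscHeckeFun M 1 p f) ≠ 0 := by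
        refine dscthIota_ne_zero M ?_
        exact ((isUnit_iff_ne_zero.mpr hf).map (dscHeckeFun M 1 p)).ne_zero
      exact dsckm_rel_unique (L := dscthL M) hn hH0 (hX0 a') h2 (hXrel a')
  · -- TH-D
    intro d a a' haa'
    symm
    refine dscthd_theta_equivariant M hsep n hn (dscthX M hM n c hPE) Θ hΘ
      (dscDiamondBar M d⁻¹) (dscDiamondAut Qb M 1 d⁻¹) ?_ a a' ?_
    · intro f x hf hrep
      exact dscth_diamond_class M d⁻¹ n f x hf hrep
    · intro f hf hrel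
      have hf' : dscthIota M f ≠ 0 := dscthIota_ne_zero M hf
      have h1 : DsckmRel (dscthL M) n (dscthChi M hM n (c a)) (dscthIota M f) :=
        dsckm_rel_of_gdRel (hXrel a) (dscth_gdRel_symm hrel)
      have e : dscthIota M (dscDiamondAut Qb M 1 d⁻¹ f) = dscthDelta M d⁻¹ (dscthIota M f) :=
        dscbr_iota_diamondAut M d⁻¹ f
      have hσ : (dscSigma M d)⁻¹ ∈ Gamma0 M := (Gamma0 M).inv_mem (dscSigma_mem M d)
      have h2 : DsckmRel (dscthL M) n (dscthChi M hM n (c a')) (dscthDelta M d⁻¹ (dscthIota M f)) := by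
        refine hDia (dscSigma M d)⁻¹ hσ d⁻¹ (dscth_sigma_inv_entry M d).symm
          (dscthChi M hM n (c a)) (dscthChi M hM n (c a')) ?_ (dscthIota M f) h1
        intro γ
        have e1 : ((dscSigma M d)⁻¹)⁻¹ * (γ : SL(2, ℤ)) * (dscSigma M d)⁻¹ =
            dscSigma M d * (γ : SL(2, ℤ)) * (dscSigma M d)⁻¹ := by rw [inv_inv]
        have hmem : dscSigma M d * (γ : SL(2, ℤ)) * (dscSigma M d)⁻¹ ∈ (dscthL M).Γ :=
          dscthL_conj_mem M hM (dscSigma_mem M d) γ.2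
        refine ⟨e1 ▸ hmem, ?_⟩
        have e2 : (⟨((dscSigma M d)⁻¹)⁻¹ * (γ : SL(2, ℤ)) * (dscSigma M d)⁻¹, e1 ▸ hmem⟩ :
            (dscthL M).Γ) = ⟨dscSigma M d * (γ : SL(2, ℤ)) * (dscSigma M d)⁻¹, hmem⟩ :=
          Subtype.ext e1
        rw [e2, haa']
        exact (dscthChar_conj hM3 (dscthL M).Γ (dscthL_neg M hM) n (c a) d (dscSigma M d)
          (dscSigma_mem M d) (dscSigma_entry M d) γ hmem).symm
      rw [e]
      have hne : dscthDelta M d⁻¹ (dscthIota M f) ≠ 0 :=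
        (map_ne_zero_iff _ (dscthDelta M d⁻¹).injective).mpr hf'
      exact dsckm_rel_unique (L := dscthL M) hn hne (hX0 a') h2 (hXrel a')

end Main

end Fermat.Agent.DS
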