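/-
Program DS (S48), package (C), row C6 (THETA), file ThetaInst (helper13): the JOIN in the literal
shape of helper20's `DscThetaBox M` (`Asm/Main.lean`) = the field `theta` of `DscInputs M true`;
the diamond law over `ℂ` is helper8's `dsctd_rel_diamond` (`Th/Dia.lean`); the only remaining
hypothesis is the norm series (NS) of row C5.
-/
import Mathlib
import Fermat.Agent.DS.C.Asm.Main
import Fermat.Agent.DS.C.Th.Theta
import Fermat.Agent.DS.C.Th.Dia

set_option autoImplicit false
set_option linter.style.haveILetI false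

noncomputable section

namespace Fermat.Agent.DS

open ModularCurve AlgebraicCurve CongruenceSubgroup Fermat.Agent.S24 Fermat.Agent.G

/-- the diamond law over `ℂ` (helper8's `Th/Dia.lean`). -/
theorem dscth_diaLaw (M : ℕ) [NeZero M] (n : ℕ) (hn : 0 < n) : DscthDiaLaw M n :=
  fun σ hσ u hu _ _ hχ _ h => dsctd_rel_diamond M hn σ hσ u hu hχ h

/-- **(THETA)** of row C6, from the norm series of row C5. -/
theorem dscth_theta (M : ℕ) [NeZero M] (hM : 6 ≤ M)
    (hNS : ∀ (p : ℕ) [Fact p.Prime] (hpM : ¬ p ∣ M),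
      haveI : NeZero p := ⟨(Fact.out : p.Prime).ne_zero⟩
      DsccjNS M p (dscUnit M p hpM)) :
    DscThetaBox M := by
  intro ℓ hℓ
  haveI : NeZero ℓ := ⟨hℓ.ne_zero⟩
  obtain ⟨Θ, hinj, -, hT, hD⟩ := dscth_theta_gen M hM ℓ (dscth_diaLaw M ℓ hℓ.pos) hNS
    (dscaKill (dscPE M) (ZMod ℓ)).subtype Subtype.coe_injective (fun a => a.2)
  exact ⟨Θ, hinj, fun p hp hpM _ χ χ' h => hT p hp hpM χ χ' h, fun d χ χ' h => hD d χ χ' h⟩

end Fermat.Agent.DS
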