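/-
Program DS (S48), package (C), row C6 (THETA), file ThetaTop (helper13): ROW C6, UNCONDITIONAL.

`dscth_thetaBox M hM : DscThetaBox M` (helper20's box, `Asm/Main.lean`) for every `M ≥ 6`:
the JOIN `dscth_theta` (`Th/ThetaInst.lean`) fed with helper14's norm series `dsccj_normSeries`
(`Conj/Top.lean`).
-/
import Mathlib
import Fermat.Agent.DS.C.Th.ThetaInst
import Fermat.Agent.DS.C.Conj.Top

set_option autoImplicit false
set_option linter.style.haveILetI false

noncomputable section

namespace Fermat.Agent.DS

/-- **(THETA)**, row C6 of package (C), for every level `M ≥ 6`. -/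
theorem dscth_thetaBox (M : ℕ) [NeZero M] (hM : 6 ≤ M) : DscThetaBox M :=
  dscth_theta M hM fun p _ hpM =>
    dsccj_normSeries M hpM (dscUnit M p hpM) (dscUnit_coe M p hpM)

end Fermat.Agent.DS
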